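import Fermat.Agent.DR.Mazur.Galois
import Fermat.Agent.FrobExists

/-!
# Mazur's principle: the final argument

`J` a Hecke–Galois module with the Eichler–Shimura relation, `χ` a mod `p` eigensystem occurring in
`J[p]`, attached to the absolutely irreducible residual representation `ρ`. If `q ≠ p` is unramified
in `ρ`, `w` is an involution of `J` commuting with everything, and some `t` with `χ(t) ≠ 0` satisfies
`φ w (t x) = - q t x` for all `x ∈ J[p]` fixed by inertia at `q` (with a non Eisenstein eigenvalue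
for some `T_ℓ`), then `q = 1` in `𝔽_p` and `ρ(φ)` is a scalar.
-/

set_option autoImplicit false
set_option linter.style.haveILetI false

open Polynomial IsLocalRing

namespace Fermat.Agent.DR.Mazur

open Fermat.Agent.S30Assembly Fermat.Agent.CMP.Transfer Fermat.Agent.Cyclotomic
  Fermat.Agent.CMP.Density

local notation "Qbar" => AlgebraicClosure ℚ
local notation "Γℚ" => (AlgebraicClosure ℚ ≃ₐ[ℚ] AlgebraicClosure ℚ)

section

variable {p : ℕ} [hp : Fact p.Prime] {A J : Type*} [CommRing A] [AddCommGroup J] [Module A J]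

/-- `J[p][ker χ]` -/
def tors (J : Type*) [AddCommGroup J] [Module A J] (χ : A →+* ZMod p) : AddSubgroup J where
  carrier := {m | p • m = 0 ∧ ∀ a : A, χ a = 0 → a • m = 0}
  zero_mem' := ⟨smul_zero _, fun a _ => smul_zero a⟩
  add_mem' := by
    rintro x y ⟨hx, hx'⟩ ⟨hy, hy'⟩
    exact ⟨by rw [smul_add, hx, hy, add_zero], fun a ha => by
      rw [smul_add, hx' a ha, hy' a ha, add_zero]⟩
  neg_mem' := by
    rintro x ⟨hx, hx'⟩
    exact ⟨by rw [smul_neg, hx, neg_zero], fun a ha => by rw [smul_neg, hx' a ha, neg_zero]⟩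

theorem mem_tors {χ : A →+* ZMod p} {m : J} :
    m ∈ tors J χ ↔ p • m = 0 ∧ ∀ a : A, χ a = 0 → a • m = 0 := Iff.rfl

/-- `a` acts on `J[p][ker χ]` through `χ a` -/
theorem smul_of_mem_tors {χ : A →+* ZMod p} {m : J} (hm : m ∈ tors J χ) {a : A} {n : ℤ}
    (h : χ a = n) : a • m = n • m := by
  have h1 := hm.2 (a - (n : A)) (by rw [map_sub, map_intCast, h, sub_self])
  rwa [sub_smul, sub_eq_zero, Int.cast_smul_eq_zsmul] at h1

variable [DistribMulAction Γℚ J]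

variable (p) in
/-- the representation on a stable subgroup -/
noncomputable def repOn (W : AddSubgroup J) [Module (ZMod p) W] (hW : ∀ (g : Γℚ), ∀ m ∈ W, g • m ∈ W) :
    Γℚ →* Module.End (ZMod p) W where
  toFun g := AddMonoidHom.toZModLinearMap p
    { toFun := fun m : W => (⟨g • m.1, hW g _ m.2⟩ : W)
      map_zero' := Subtype.ext (smul_zero g)
      map_add' := fun x y => Subtype.ext (smul_add g x.1 y.1) }
  map_one' := LinearMap.ext fun m => Subtype.ext (one_smul Γℚ m.1)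
  map_mul' g h := LinearMap.ext fun m => Subtype.ext (mul_smul g h m.1)

theorem coe_repOn (W : AddSubgroup J) [Module (ZMod p) W]
    (hW : ∀ (g : Γℚ), ∀ m ∈ W, g • m ∈ W) (g : Γℚ) (m : W) : ((repOn p W hW g m : W) : J) = g • m.1 :=
  rfl

variable (S : Finset ℕ) (x : ℕ → A)
    (hlev : ∀ n : ℕ, ∃ L : IntermediateField ℚ Qbar, FiniteDimensional ℚ L ∧
      ∀ σ : Γℚ, (∀ y ∈ L, σ y = y) → ∀ m : J, p ^ n • m = 0 → σ • m = m)
    (hfrob : ∀ ℓ : ℕ, ℓ.Prime → ℓ ∉ S → ∀ B : ValuationSubring Qbar, B.LiesOverPrime ℓ →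
      ∀ σ : Γℚ, B.IsFrobeniusAt σ ℓ → ∀ m : J, (∃ n : ℕ, p ^ n • m = 0) →
        σ • σ • m - x ℓ • (σ • m) + ℓ • m = 0)
    (χ : A →+* ZMod p) (ρ : ResidualGaloisRep (ZMod p))
    (hρ : ∀ ℓ : ℕ, ℓ.Prime → ℓ ∉ S → ∀ B : ValuationSubring Qbar, B.LiesOverPrime ℓ →
      ∀ σ : Γℚ, B.IsFrobeniusAt σ ℓ →
        LinearMap.charpoly (ρ.ρ σ) = X ^ 2 - C (χ (x ℓ)) * X + C (ℓ : ZMod p))

include hlev hfrob hρ in
theorem hθ_repOn (W : AddSubgroup J) (hWt : W ≤ tors J χ) [Module (ZMod p) W]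
    (hW : ∀ (g : Γℚ), ∀ m ∈ W, g • m ∈ W) (g : Γℚ) (v : W) :
    repOn p W hW g v + LinearMap.det (ρ.ρ g) • repOn p W hW g⁻¹ v =
      LinearMap.trace (ZMod p) ρ.V (ρ.ρ g) • v := by
  have hsm : ∀ (c : ZMod p) (z : W), c • z = c.val • z := fun c z => by
    rw [← Nat.cast_smul_eq_nsmul (ZMod p), ZMod.natCast_zmod_val]
  apply Subtype.ext
  rw [hsm, hsm, AddSubgroup.coe_add, AddSubgroup.coe_nsmul, AddSubgroup.coe_nsmul, coe_repOn,
    coe_repOn]
  exact trace_relation S x hlev hfrob χ ρ hρ g (hWt v.2).1 (hWt v.2).2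

/-- `ZMod p`-module structure on subgroups of `J[p][ker χ]` -/
@[reducible] def zmodOn {χ : A →+* ZMod p} (W : AddSubgroup J) (hWt : W ≤ tors J χ) :
    Module (ZMod p) W :=
  AddCommGroup.zmodModule fun z => Subtype.ext (by
    rw [AddSubgroup.coe_nsmul]; exact (hWt z.2).1)

variable (habs : ρ.IsAbsolutelyIrreducible) (hp2 : p ≠ 2)

include hlev hfrob hρ habs hp2 in
theorem act_trivially {W : AddSubgroup J} (hWt : W ≤ tors J χ)
    (hW : ∀ (g : Γℚ), ∀ m ∈ W, g • m ∈ W) {g : Γℚ} (hg : ρ.ρ g = 1) {m : J} (hm : m ∈ W) :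
    g • m = m := by
  let _ := zmodOn W hWt
  have h := eq_one_of_eq_one ρ habs (repOn p W hW)
    (hθ_repOn S x hlev hfrob χ ρ hρ W hWt hW) hp2 hg ⟨m, hm⟩
  exact congrArg Subtype.val h

include hlev hfrob hρ habs hp2 in
theorem act_scalar {W : AddSubgroup J} (hWt : W ≤ tors J χ)
    (hW : ∀ (g : Γℚ), ∀ m ∈ W, g • m ∈ W) {m₀ : J} (hm₀ : m₀ ∈ W) (hm₀' : m₀ ≠ 0)
    {g : Γℚ} {c : ℤ} (hg : ∀ m ∈ W, g • m = c • m) :
    ρ.ρ g = (c : ZMod p) • (1 : Module.End (ZMod p) ρ.V) := by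
  let _ := zmodOn W hWt
  have : Nontrivial W := ⟨⟨⟨m₀, hm₀⟩, 0, fun h => hm₀' (congrArg Subtype.val h)⟩⟩
  refine scalar_of_scalar' ρ habs (repOn p W hW)
    (hθ_repOn S x hlev hfrob χ ρ hρ W hWt hW) hp2 fun v => Subtype.ext ?_
  rw [coe_repOn, hg _ v.2, Int.cast_smul_eq_zsmul, AddSubgroup.coe_zsmul]

include hlev hfrob hρ in
theorem det_frobenius {q : ℕ} (hq : q.Prime) (hqp : q ≠ p) (B : ValuationSubring Qbar)
    (hB : B.LiesOverPrime q) (φ : Γℚ) (hφ : B.IsFrobeniusAt φ q) :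
    LinearMap.det (ρ.ρ φ) = (q : ZMod p) := by
  obtain ⟨a, -, -, hdet⟩ := exists_represents_trace (A := A) (M := J) (p := p) S x hlev hfrob
    (R := ZMod p) (by rw [CharP.cast_eq_zero]; exact zero_mem _) χ (toAdic ρ) hρ 1 φ
  have hbot : maximalIdeal (ZMod p) = ⊥ := IsLocalRing.maximalIdeal_eq_bot
  rw [pow_one, hbot, Ideal.mem_bot, sub_eq_zero] at hdet
  have hqp' : ¬ q ∣ p ^ 1 := fun h => hqp ((Nat.prime_dvd_prime_iff_eq hq Fact.out).mp
    (hq.dvd_of_dvd_pow h))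
  have he : ((e p 1 φ : ℕ) : ZMod (p ^ 1)) = (q : ℕ) := by
    rw [e_cast, cyc_frobenius hq hqp' B hB hφ]
  rw [ZMod.natCast_eq_natCast_iff, pow_one, ← ZMod.natCast_eq_natCast_iff] at he
  rw [← he]
  exact hdet

variable [SMulCommClass Γℚ A J]

theorem smul_mem_tors {χ : A →+* ZMod p} (g : Γℚ) {m : J} (hm : m ∈ tors J χ) :
    g • m ∈ tors J χ := by
  refine ⟨by rw [← gal_nsmul, hm.1, smul_zero], fun a ha => ?_⟩
  rw [← smul_comm, hm.2 a ha, smul_zero]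

include hlev hfrob hρ habs hp2 in
/-- **Mazur's principle: the final argument.** -/
theorem mazur_core {q : ℕ} (hq : q.Prime) (hqp : q ≠ p) (hunr : ρ.IsUnramifiedAt q)
    {m₀ : J} (hm₀ : m₀ ∈ tors J χ) (hm₀' : m₀ ≠ 0)
    (w : J →+ J) (hww : ∀ m, w (w m) = m) (hwg : ∀ (g : Γℚ) (m : J), w (g • m) = g • w m)
    (hwa : ∀ (a : A) (m : J), w (a • m) = a • w m)
    {t : A} (ht : χ t ≠ 0) {ℓ : ℕ} {y : A} (hy : χ y ≠ ℓ + 1)
    (hrel : ∀ B : ValuationSubring Qbar, B.LiesOverPrime q → ∀ φ : Γℚ, B.IsFrobeniusAt φ q →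
      ∀ (a : ℤ), ¬ (p : ℤ) ∣ a - (ℓ + 1) → ∀ m : J, p • m = 0 →
      (∀ τ ∈ B.inertiaSubgroupIn ℚ, τ • m = m) → y • m = a • m →
        φ • w (t • m) = -(q • (t • m))) :
    (q : ZMod p) = 1 ∧ ∀ B : ValuationSubring Qbar, B.LiesOverPrime q → ∀ φ : Γℚ,
      B.IsFrobeniusAt φ q → ∃ c : ZMod p, ρ.ρ φ = c • (1 : Module.End (ZMod p) ρ.V) := by
  -- the relation on `V = tors J χ`
  have hV : ∀ B : ValuationSubring Qbar, B.LiesOverPrime q → ∀ φ : Γℚ, B.IsFrobeniusAt φ q →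
      ∀ m ∈ tors J χ, φ • w m = -(q • m) := by
    intro B hB φ hφ m hm
    have hI : ∀ τ ∈ B.inertiaSubgroupIn ℚ, ∀ m' ∈ tors J χ, τ • m' = m' := fun τ hτ m' hm' =>
      act_trivially S x hlev hfrob χ ρ hρ habs hp2 le_rfl (fun g m hm => smul_mem_tors g hm)
        (hunr B hB τ hτ) hm'
    obtain ⟨a, ha⟩ := ZMod.intCast_surjective (χ y)
    have ha' : ¬ (p : ℤ) ∣ a - (ℓ + 1) := by
      rw [← ZMod.intCast_zmod_eq_zero_iff_dvd]
      push_cast
      rw [ha, sub_eq_zero]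
      exact hy
    obtain ⟨u, hu⟩ := ZMod.intCast_surjective (χ t)⁻¹
    obtain ⟨c, hc⟩ := ZMod.intCast_surjective (χ t)
    -- `m = t • (u • m)`
    have hum : u • m ∈ tors J χ := zsmul_mem hm u
    have htum : t • u • m = m := by
      rw [smul_of_mem_tors hum hc.symm, smul_smul]
      have h1 : ((c * u : ℤ) : ZMod p) = ((1 : ℤ) : ZMod p) := by
        push_cast
        rw [hu, hc, mul_inv_cancel₀ ht]
      rw [ZMod.intCast_eq_intCast_iff_dvd_sub] at h1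
      obtain ⟨d, hd⟩ := h1
      have h2 : c * u = 1 - d * p := by linarith
      rw [h2, sub_smul, one_smul, mul_smul, natCast_zsmul, hm.1, smul_zero, sub_zero]
    have h := hrel B hB φ hφ a ha' (u • m) hum.1 (fun τ hτ => hI τ hτ _ hum)
      (smul_of_mem_tors hum ha.symm)
    rwa [htum] at h
  have hwt : ∀ m ∈ tors J χ, w m ∈ tors J χ := by
    intro m hm
    refine ⟨by rw [← map_nsmul, hm.1, map_zero], fun a ha => by rw [← hwa, hm.2 a ha, map_zero]⟩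
  -- an eigenspace of `w`
  obtain ⟨ε, hε, m₁, hm₁, hm₁', hwm₁⟩ : ∃ ε : ℤ, ε ^ 2 = 1 ∧ ∃ m ∈ tors J χ, m ≠ 0 ∧
      w m = ε • m := by
    by_cases h : w m₀ + m₀ = 0
    · refine ⟨-1, by norm_num, m₀, hm₀, hm₀', ?_⟩
      rw [neg_smul, one_smul]
      exact eq_neg_of_add_eq_zero_left h
    · refine ⟨1, by norm_num, w m₀ + m₀, add_mem (hwt _ hm₀) hm₀, h, ?_⟩
      rw [map_add, hww, one_smul, add_comm]
  let W : AddSubgroup J :=
    { carrier := {m | m ∈ tors J χ ∧ w m = ε • m}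
      zero_mem' := ⟨zero_mem _, by rw [map_zero, smul_zero]⟩
      add_mem' := by
        rintro a b ⟨ha, ha'⟩ ⟨hb, hb'⟩
        exact ⟨add_mem ha hb, by rw [map_add, ha', hb', smul_add]⟩
      neg_mem' := by
        rintro a ⟨ha, ha'⟩
        exact ⟨neg_mem ha, by rw [map_neg, ha', smul_neg]⟩ }
  have hWt : W ≤ tors J χ := fun m hm => hm.1
  have hWg : ∀ (g : Γℚ), ∀ m ∈ W, g • m ∈ W := fun g m hm =>
    ⟨smul_mem_tors g hm.1, by
      rw [hwg, hm.2, smul_comm (M := Γℚ) (N := ℤ)]⟩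
  have hscal : ∀ B : ValuationSubring Qbar, B.LiesOverPrime q → ∀ φ : Γℚ,
      B.IsFrobeniusAt φ q →
        ρ.ρ φ = ((-(ε * q) : ℤ) : ZMod p) • (1 : Module.End (ZMod p) ρ.V) := by
    intro B hB φ hφ
    refine act_scalar S x hlev hfrob χ ρ hρ habs hp2 hWt hWg (m₀ := m₁) ⟨hm₁, hwm₁⟩ hm₁' ?_
    intro m hm
    have h1 := hV B hB φ hφ m hm.1
    rw [hm.2, smul_comm (M := Γℚ) (N := ℤ)] at h1
    have h2 : φ • m = ε • ε • φ • m := by
      rw [smul_smul, ← pow_two, hε, one_smul]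
    rw [h2, h1, smul_neg, neg_smul, mul_smul, natCast_zsmul]
  refine ⟨?_, fun B hB φ hφ => ⟨_, hscal B hB φ hφ⟩⟩
  -- the determinant
  obtain ⟨B, hB, φ, hφ⟩ : ∃ B : ValuationSubring Qbar, B.LiesOverPrime q ∧
      ∃ φ : Γℚ, B.IsFrobeniusAt φ q := by
    obtain ⟨B, hB⟩ := FrobExists.exists_liesOverPrime Qbar hq
    exact ⟨B, hB, FrobExists.exists_isFrobeniusAt B hq hB⟩
  have h1 := det_frobenius S x hlev hfrob χ ρ hρ hq hqp B hB φ hφ
  rw [hscal B hB φ hφ, LinearMap.det_smul, ρ.finrank_eq, map_one, mul_one, ← Int.cast_pow,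
    neg_sq, mul_pow, hε, one_mul, Int.cast_pow, Int.cast_natCast] at h1
  have hq0 : (q : ZMod p) ≠ 0 := by
    rw [Ne, ZMod.natCast_eq_zero_iff]
    exact fun h => hqp ((Nat.prime_dvd_prime_iff_eq hp.out hq).mp h).symm
  rw [pow_two] at h1
  exact mul_left_cancel₀ hq0 (h1.trans (mul_one _).symm)

end

end Fermat.Agent.DR.Mazur
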