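import Fermat.Agent.HeckeDualityC
import Fermat.Agent.IntStr.Main
import Fermat.Agent.CMP.Newness

/-!
# A mod `p` character of the anemic Hecke algebra of level `M` comes from an eigenform
-/

set_option autoImplicit false

open CongruenceSubgroup ModularFormClass

namespace Fermat.Agent.DR.Mazur

open Fermat.Agent.S30Wiring Fermat.Agent.HeckeDuality Fermat.Agent.CMP.Newness

theorem exists_eigenform_of_mod {M p : ℕ} [NeZero M] [hp : Fact p.Prime] {S : Finset ℕ}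
    (hMS : ∀ q : ℕ, q.Prime → q ∣ M → q ∈ S) (χ : AnemicAlg S →+* ZMod p)
    (hχ : ∀ t : AnemicAlg S, anemicEval hMS t = 0 → χ t = 0) :
    ∃ (f : CuspForm (Gamma0 M) 2) (𝔪 : Ideal (integralClosure ℤ ℂ)), f.IsNormalizedEigenform ∧
      𝔪.IsMaximal ∧ (p : integralClosure ℤ ℂ) ∈ 𝔪 ∧
      ∀ (ℓ : ℕ) (hℓ : ℓ.Prime) (hℓS : ℓ ∉ S) (c : ℤ),
        χ (MvPolynomial.X ⟨⟨ℓ, hℓ⟩, hℓS⟩) = c →
        ∃ a : integralClosure ℤ ℂ, (a : ℂ) = qCoeff f ℓ ∧
          a - (c : integralClosure ℤ ℂ) ∈ 𝔪 := by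
  classical
  let ev : AnemicAlg S →+* CuspForm.heckeAlgebra M 2 (↑S : Set ℕ) := (anemicEval hMS).toRingHom
  have hsurj : Function.Surjective ev := anemicEval_surjective hMS
  let χ' : CuspForm.heckeAlgebra M 2 (↑S : Set ℕ) →+* ZMod p :=
    ev.liftOfSurjective hsurj ⟨χ, fun t ht => hχ t ht⟩
  have hχ' : ∀ t : AnemicAlg S, χ' (anemicEval hMS t) = χ t := fun t =>
    RingHom.liftOfRightInverse_comp_apply ev _ (Function.rightInverse_surjInv hsurj) ⟨χ, _⟩ t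
  let i : CuspForm.heckeAlgebra M 2 (↑S : Set ℕ) →+* CuspForm.heckeAlgebra M 2 ∅ :=
    (Subalgebra.inclusion
      (CuspForm.heckeAlgebra_mono (N := M) (k := 2) (Set.empty_subset (↑S : Set ℕ)))).toRingHom
  have hi : Function.Injective i := Subalgebra.inclusion_injective _
  let _ : Algebra (CuspForm.heckeAlgebra M 2 (↑S : Set ℕ)) (CuspForm.heckeAlgebra M 2 ∅) :=
    i.toAlgebra
  have hfin : Module.Finite ℤ (CuspForm.heckeAlgebra M 2 ∅) := S22.result M 2 ∅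
  have hint : Algebra.IsIntegral ℤ (CuspForm.heckeAlgebra M 2 ∅) := Algebra.IsIntegral.of_finite ℤ _
  have hst : IsScalarTower ℤ (CuspForm.heckeAlgebra M 2 (↑S : Set ℕ))
      (CuspForm.heckeAlgebra M 2 ∅) :=
    IsScalarTower.of_algebraMap_eq' (RingHom.ext_int _ _)
  have hint' : Algebra.IsIntegral (CuspForm.heckeAlgebra M 2 (↑S : Set ℕ))
      (CuspForm.heckeAlgebra M 2 ∅) :=
    Algebra.IsIntegral.tower_top ℤ
  have hmax : (RingHom.ker χ').IsMaximal :=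
    RingHom.ker_isMaximal_of_surjective χ' (ZMod.ringHom_surjective χ')
  obtain ⟨m, hm, hcomap⟩ := Ideal.exists_ideal_over_maximal_of_isIntegral
    (S := CuspForm.heckeAlgebra M 2 ∅) (RingHom.ker χ') (by
      have h0 : RingHom.ker (algebraMap (CuspForm.heckeAlgebra M 2 (↑S : Set ℕ))
          (CuspForm.heckeAlgebra M 2 ∅)) = ⊥ :=
        (RingHom.injective_iff_ker_eq_bot _).mp hi
      rw [h0]
      exact bot_le)
  obtain ⟨f, ψ, m', hf, hm', hcomap', -, hf3⟩ :=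
    exists_eigenform_of_isMaximal (IntStr.hasIntegralStructure M 2) m
  have hmem : ∀ x : CuspForm.heckeAlgebra M 2 (↑S : Set ℕ), χ' x = 0 → ψ (i x) ∈ m' := by
    intro x hx
    have h1 : x ∈ m.comap (algebraMap (CuspForm.heckeAlgebra M 2 (↑S : Set ℕ))
        (CuspForm.heckeAlgebra M 2 ∅)) := by
      rw [hcomap]; exact hx
    have h2 : i x ∈ m'.comap ψ := by
      rw [hcomap']; exact h1
    exact h2
  refine ⟨f, m', hf, hm', ?_, fun ℓ hℓ hℓS c hc => ?_⟩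
  · have h := hmem (p : CuspForm.heckeAlgebra M 2 (↑S : Set ℕ)) (by
      rw [map_natCast, CharP.cast_eq_zero])
    rwa [map_natCast, map_natCast] at h
  · have hℓM : ¬ ℓ ∣ M := fun h => hℓS (hMS ℓ hℓ h)
    have hℓS' : ℓ ∉ (↑S : Set ℕ) := fun h => hℓS (Finset.mem_coe.mp h)
    refine ⟨ψ (gen M 2 hℓ), (hf3 ℓ hℓ).symm, ?_⟩
    have h := hmem (CuspForm.heckeAlgebra.T hℓ hℓM hℓS' - (c : CuspForm.heckeAlgebra M 2 (↑S : Set ℕ)))
      (by
        rw [map_sub, map_intCast, ← anemicEval_X hMS ⟨⟨ℓ, hℓ⟩, hℓS⟩ hℓM hℓS', hχ', hc, sub_self])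
    rw [map_sub, map_sub, map_intCast, map_intCast] at h
    have h1 : i (CuspForm.heckeAlgebra.T hℓ hℓM hℓS') = gen M 2 hℓ := by
      rw [gen, dif_neg hℓM]
      rfl
    rwa [h1] at h

end Fermat.Agent.DR.Mazur
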