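import Fermat.Agent.DR.Mazur.Galois
import Fermat.Agent.FrobCompare
import Fermat.Agent.EichlerShimura.S29FromES
import Fermat.Agent.CMP.Density

/-!
# An absolutely irreducible residual representation is not Eisenstein
-/

set_option autoImplicit false

open Polynomial

namespace Fermat.Agent.DR.Mazur

local notation "Qbar" => AlgebraicClosure ℚ
local notation "Γℚ" => (AlgebraicClosure ℚ ≃ₐ[ℚ] AlgebraicClosure ℚ)

variable {p : ℕ} [hp : Fact p.Prime]

/-- matrices `diag(1, det ρ(g))` -/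
noncomputable def diagRep (ρ : ResidualGaloisRep (ZMod p)) : Γℚ →* Matrix (Fin 2) (Fin 2) (ZMod p) where
  toFun g := Matrix.diagonal ![1, LinearMap.det (ρ.ρ g)]
  map_one' := by
    rw [map_one, map_one, ← Matrix.diagonal_one]
    congr 1
    funext i
    fin_cases i <;> rfl
  map_mul' g h := by
    rw [map_mul, map_mul, Matrix.diagonal_mul_diagonal]
    congr 1
    funext i
    fin_cases i <;> simp

theorem exists_not_eisenstein (ρ : ResidualGaloisRep (ZMod p)) (habs : ρ.IsAbsolutelyIrreducible)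
    (S : Finset ℕ) (b : ℕ → ZMod p)
    (hρ : ∀ ℓ : ℕ, ℓ.Prime → ℓ ∉ S → ∀ B : ValuationSubring Qbar, B.LiesOverPrime ℓ →
      ∀ σ : Γℚ, B.IsFrobeniusAt σ ℓ →
        LinearMap.charpoly (ρ.ρ σ) = X ^ 2 - C (b ℓ) * X + C (ℓ : ZMod p)) :
    ∃ ℓ : ℕ, ℓ.Prime ∧ ℓ ∉ S ∧ b ℓ ≠ ℓ + 1 := by
  by_contra hcon
  push Not at hcon
  have hlev : ∃ L : IntermediateField ℚ Qbar,
      FiniteDimensional ℚ L ∧ ∀ g : Γℚ, (∀ x ∈ L, g x = x) → diagRep ρ g = 1 := by
    obtain ⟨L, hL, h⟩ := ρ.factorsThroughFiniteLevel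
    refine ⟨L, hL, fun g hg => ?_⟩
    change Matrix.diagonal ![1, LinearMap.det (ρ.ρ g)] = 1
    rw [h g hg, map_one, ← Matrix.diagonal_one]
    congr 1
    funext i
    fin_cases i <;> rfl
  let ρ' : ResidualGaloisRep (ZMod p) :=
    S29FromES.ofMatrixRep (RingHom.id (ZMod p)) (diagRep ρ) hlev
  have hcp : ∀ σ : Γℚ, (LinearMap.charpoly (ρ'.ρ σ)).map (RingHom.id _) =
      (LinearMap.charpoly (ρ.ρ σ)).map (RingHom.id _) := by
    refine FrobCompare.residual_charpoly_map_eq CMP.Density.frobDensity (RingHom.id _)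
      (RingHom.id _) ρ' ρ S fun ℓ hℓ hℓS B hB σ hσ => ?_
    have h1 := hρ ℓ hℓ hℓS B hB σ hσ
    have hdet : LinearMap.det (ρ.ρ σ) = (ℓ : ZMod p) := by
      rw [BN2.charpoly_eq_of_finrank_two ρ.finrank_eq] at h1
      have h2 := congrArg (fun P => P.coeff 0) h1
      simpa [coeff_X, coeff_C] using h2
    rw [S29FromES.charpoly_ofMatrixRep, h1, hcon ℓ hℓ hℓS]
    have h3 : diagRep ρ σ = Matrix.diagonal ![1, LinearMap.det (ρ.ρ σ)] := rfl
    rw [h3, Matrix.trace_diagonal, Matrix.det_diagonal, Fin.sum_univ_two, Fin.prod_univ_two, hdet]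
    simp [add_comm]
  have habs' : ρ'.IsAbsolutelyIrreducible :=
    BN2.isAbsolutelyIrreducible_of_charpoly_eq (RingHom.id _) (RingHom.id _) ρ' ρ hcp habs
  have hspan := span_eq_top ρ' habs'
  -- all operators are lower triangular
  let e₀ : ρ'.V := (Pi.single 0 1 : Fin 2 → ZMod p)
  let pr : ρ'.V →ₗ[ZMod p] ZMod p := (LinearMap.proj 1 : (Fin 2 → ZMod p) →ₗ[ZMod p] ZMod p)
  let T : Submodule (ZMod p) (Module.End (ZMod p) ρ'.V) :=
    LinearMap.ker (pr ∘ₗ (LinearMap.applyₗ e₀ : Module.End (ZMod p) ρ'.V →ₗ[ZMod p] ρ'.V))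
  have hT : Submodule.span (ZMod p) (Set.range ρ'.ρ) ≤ T := by
    rw [Submodule.span_le]
    rintro _ ⟨g, rfl⟩
    change (Matrix.toLin' ((RingHom.id (ZMod p)).mapMatrix (diagRep ρ g))
      (Pi.single 0 1 : Fin 2 → ZMod p) : Fin 2 → ZMod p) 1 = 0
    have h3 : diagRep ρ g = Matrix.diagonal ![1, LinearMap.det (ρ.ρ g)] := rfl
    rw [h3]
    simp
  rw [hspan] at hT
  let f : Module.End (ZMod p) ρ'.V :=
    Matrix.toLin' (!![0, 0; 1, 0] : Matrix (Fin 2) (Fin 2) (ZMod p))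
  have h5 : f ∈ T := hT Submodule.mem_top
  have h6 : Matrix.toLin' (!![0, 0; 1, 0] : Matrix (Fin 2) (Fin 2) (ZMod p))
      (Pi.single 0 1) 1 = 0 := h5
  simp at h6

end Fermat.Agent.DR.Mazur
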