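import Fermat.Agent.GAL.Lattice

/-!
# Mazur's principle: `J[p][𝔪] ≠ 0`

Pure algebra: a finite module whose annihilator lies in a maximal ideal `𝔪` with finite residue
field has nonzero `𝔪`-torsion; combined with the lattice input.
-/

set_option autoImplicit false
set_option linter.style.haveILetI false

namespace Fermat.Agent.DR.Mazur

open Fermat.Agent.S30Wiring

section Algebra

variable {R M : Type*} [CommRing R] [AddCommGroup M] [Module R M] [Finite M]

/-- A finite module either has an element killed exactly by the prime `𝔪` or is killed by some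
`t ∉ 𝔪`. -/
theorem exists_torsion_or (𝔪 : Ideal R) [h𝔪 : 𝔪.IsMaximal] :
    (∃ y : M, y ≠ 0 ∧ ∀ s ∈ 𝔪, s • y = 0) ∨ ∃ t : R, t ∉ 𝔪 ∧ ∀ x : M, t • x = 0 := by
  classical
  by_cases hall : ∀ x : M, ∃ t : R, t ∉ 𝔪 ∧ t • x = 0
  · right
    choose t ht htx using hall
    have : Fintype M := Fintype.ofFinite M
    refine ⟨∏ x : M, t x, fun h => ?_, fun x => ?_⟩
    · obtain ⟨x, -, hx⟩ := (h𝔪.isPrime.prod_mem_iff).mp h
      exact ht x hx
    · rw [← Finset.mul_prod_erase _ _ (Finset.mem_univ x), mul_comm, mul_smul, htx, smul_zero]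
  · left
    push Not at hall
    -- choose `x` with minimal orbit
    let Bad : Set M := {x | ∀ t : R, t ∉ 𝔪 → t • x ≠ 0}
    have hBad : ∃ x, x ∈ Bad := hall
    obtain ⟨x, hx, hmin⟩ : ∃ x ∈ Bad, ∀ y ∈ Bad,
        Nat.card (Submodule.span R {x}) ≤ Nat.card (Submodule.span R {y}) := by
      obtain ⟨x, hx, h⟩ := Set.exists_min_image Bad
        (fun y => Nat.card (Submodule.span R {y})) (Set.toFinite _) hBad
      exact ⟨x, hx, h⟩
    -- for `s ∈ 𝔪`, `s • x` is not bad
    have hnot : ∀ s ∈ 𝔪, ∃ t, t ∉ 𝔪 ∧ t • s • x = 0 := by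
      intro s hs
      by_contra hcon
      push Not at hcon
      have h1 : s • x ∈ Bad := hcon
      have hle : Submodule.span R {s • x} ≤ Submodule.span R {x} := by
        rw [Submodule.span_singleton_le_iff_mem]
        exact Submodule.smul_mem _ _ (Submodule.mem_span_singleton_self x)
      have hcard := hmin _ h1
      have heq : Submodule.span R {s • x} = Submodule.span R {x} := by
        apply SetLike.coe_injective
        exact Set.eq_of_subset_of_ncard_le hle hcard (Set.toFinite _)
      have hmem : x ∈ Submodule.span R {s • x} := heq ▸ Submodule.mem_span_singleton_self x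
      obtain ⟨r, hr⟩ := Submodule.mem_span_singleton.mp hmem
      have h2 : (1 - r * s) • x = 0 := by rw [sub_smul, one_smul, mul_smul, hr, sub_self]
      by_cases h3 : 1 - r * s ∈ 𝔪
      · apply h𝔪.ne_top
        rw [Ideal.eq_top_iff_one]
        have : (1 : R) = (1 - r * s) + r * s := by ring
        rw [this]
        exact add_mem h3 (Ideal.mul_mem_left _ _ hs)
      · exact hx _ h3 h2
    choose! t ht htx using hnot
    -- finitely many values
    have hfin : Set.Finite ((fun s => s • x) '' (𝔪 : Set R)) := Set.toFinite _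
    obtain ⟨F, hF𝔪, hF⟩ := Set.Finite.exists_finset_coe hfin |>.elim fun F hF =>
      (⟨F, (by
        intro y hy
        have : y ∈ (F : Set M) := hy
        rw [hF] at this
        exact this), (by
        intro s hs
        have : s • x ∈ (F : Set M) := by rw [hF]; exact ⟨s, hs, rfl⟩
        exact this)⟩ : ∃ F : Finset M, (∀ y ∈ F, ∃ s ∈ (𝔪 : Set R), s • x = y) ∧
          ∀ s ∈ 𝔪, s • x ∈ F)
    choose! σ hσ hσx using hF𝔪
    let T : R := ∏ y ∈ F, t (σ y)
    have hT : T ∉ 𝔪 := by
      intro h
      obtain ⟨y, hy, hy'⟩ := (h𝔪.isPrime.prod_mem_iff).mp h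
      exact ht _ (hσ y hy) hy'
    refine ⟨T • x, hx T hT, fun s hs => ?_⟩
    have hy : s • x ∈ F := hF s hs
    rw [smul_comm, ← hσx _ hy]
    change (∏ y ∈ F, t (σ y)) • _ = _
    rw [← Finset.mul_prod_erase _ _ hy, mul_comm, mul_smul, htx _ (hσ _ hy), smul_zero]

omit [Finite M] in
/-- If `t P ⊆ p P` then a monic polynomial in `t` with other coefficients divisible by `p` kills
`P`. -/
theorem exists_pow_add {P : Type*} [AddCommGroup P] [Module R P] [Module.Finite ℤ P]
    [Module.Free ℤ P] {p : ℤ} {t : R} (ht : ∀ x : P, ∃ y : P, t • x = p • y) :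
    ∃ (d : ℕ) (b : R), ∀ x : P, (t ^ d + p • b) • x = 0 := by
  classical
  -- `t = p s`
  let bP := Module.Free.chooseBasis ℤ P
  choose s hs using ht
  let sL : P →ₗ[ℤ] P := bP.constr ℤ fun i => s (bP i)
  let tL : P →ₗ[ℤ] P := (DistribSMul.toAddMonoidHom P t).toIntLinearMap
  have htL : ∀ x, tL x = t • x := fun x => rfl
  have hst : tL = p • sL := by
    apply bP.ext
    intro i
    rw [htL, hs, LinearMap.smul_apply, Module.Basis.constr_basis]
  let f := LinearMap.charpoly sL
  have hmonic : f.Monic := LinearMap.charpoly_monic sL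
  have h0 : Polynomial.aeval sL f = 0 := LinearMap.aeval_self_charpoly sL
  have h1 : Polynomial.aeval tL (f.scaleRoots p) = 0 := by
    have := Polynomial.scaleRoots_aeval_eq_zero (r := p) h0
    rwa [Algebra.algebraMap_eq_smul_one, smul_mul_assoc, one_mul, ← hst] at this
  refine ⟨f.natDegree, ∑ i ∈ Finset.range f.natDegree,
    (f.coeff i * p ^ (f.natDegree - i - 1)) • t ^ i, fun x => ?_⟩
  have h2 := LinearMap.congr_fun h1 x
  rw [Polynomial.aeval_eq_sum_range, Polynomial.natDegree_scaleRoots,
    Finset.sum_range_succ, Polynomial.coeff_scaleRoots_natDegree, hmonic.leadingCoeff,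
    LinearMap.add_apply, LinearMap.sum_apply, one_smul] at h2
  have hpow : ∀ (i : ℕ) (x : P), (tL ^ i) x = t ^ i • x := by
    intro i
    induction i with
    | zero => intro x; simp
    | succ i ih => intro x; rw [pow_succ, Module.End.mul_apply, ih, htL, pow_succ, mul_smul]
  rw [hpow] at h2
  rw [add_smul, add_comm]
  rw [LinearMap.zero_apply] at h2
  rw [← h2]
  congr 1
  rw [Finset.smul_sum, Finset.sum_smul]
  refine Finset.sum_congr rfl fun i hi => ?_
  rw [LinearMap.smul_apply, hpow, Polynomial.coeff_scaleRoots, smul_smul, smul_assoc]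
  congr 1
  have hi' : i < f.natDegree := Finset.mem_range.mp hi
  obtain ⟨j, hj⟩ := Nat.exists_eq_add_of_lt hi'
  have e1 : f.natDegree - i - 1 = j := by omega
  have e2 : f.natDegree - i = j + 1 := by omega
  rw [e1, e2, pow_succ]
  ring

end Algebra

open ModularCurve

/-- **Support**: a mod `p` system of eigenvalues occurring in `S₂(Γ₀(N))` occurs in `J₀(N)[p]`. -/
theorem exists_torsion_of_lattice {N p : ℕ} [NeZero N] [hp : Fact p.Prime] {S : Finset ℕ}
    (hNS : ∀ q : ℕ, q.Prime → q ∣ N → q ∈ S) (hlat : Fermat.Agent.GAL.Lattice.LatticeInput N p S)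
    (hfin : FiniteTorsionInput N p) (χ : AnemicAlg S →+* ZMod p)
    (hχ : ∀ t : AnemicAlg S, anemicEval hNS t = 0 → χ t = 0) :
    ∃ x : JZero N, x ≠ 0 ∧ p • x = 0 ∧ ∀ t : AnemicAlg S, χ t = 0 →
      (letI := heckeModuleBar N; anemicIncl S t • x = 0) := by
  letI := heckeModuleBar N
  letI : Module (AnemicAlg S) (JZero N) := Module.compHom (JZero N) (anemicIncl S).toRingHom
  have hsmul : ∀ (a : AnemicAlg S) (x : JZero N), a • x = anemicIncl S a • x := fun _ _ => rfl
  let M : Submodule (AnemicAlg S) (JZero N) :=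
    Submodule.torsionBy (AnemicAlg S) (JZero N) (p : AnemicAlg S)
  have hmem : ∀ x : JZero N, x ∈ M ↔ p • x = 0 := by
    intro x
    rw [Submodule.mem_torsionBy_iff, Nat.cast_smul_eq_nsmul]
  have hfin' : Finite M := by
    have h1 := hfin 1
    rw [pow_one] at h1
    have h1' : Finite {x : JZero N // p • x = 0} := h1.to_subtype
    refine Finite.of_injective (β := {x : JZero N // p • x = 0})
      (fun x => ⟨x.1, (hmem x.1).mp x.2⟩) ?_
    intro x y h
    exact Subtype.ext (congrArg (fun z : {x : JZero N // p • x = 0} => z.1) h)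
  have hsurj : Function.Surjective χ := ZMod.ringHom_surjective χ
  have hmax : (RingHom.ker χ).IsMaximal := RingHom.ker_isMaximal_of_surjective χ hsurj
  rcases exists_torsion_or (M := M) (RingHom.ker χ) with ⟨y, hy, hy'⟩ | ⟨t, ht, ht'⟩
  · refine ⟨y, fun h => hy (Subtype.ext h), (hmem _).mp y.2, fun t ht => ?_⟩
    have := hy' t ht
    rw [← hsmul, ← Submodule.coe_smul, this, Submodule.coe_zero]
  · exfalso
    obtain ⟨P, _, _, _, _, hP1, hP2⟩ := hlat hNS
    have h1 : ∀ x : P, ∃ y : P, t • x = (p : ℤ) • y := by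
      intro x
      obtain ⟨y, hy⟩ := hP2 1 t (fun z hz => by
        rw [pow_one] at hz
        have := congrArg Subtype.val (ht' ⟨z, (hmem z).mpr hz⟩)
        exact this) x
      exact ⟨y, by rw [hy, pow_one, natCast_zsmul]⟩
    obtain ⟨d, b, hdb⟩ := exists_pow_add h1
    have h2 := hχ _ (hP1 _ hdb)
    rw [map_add, map_pow, map_zsmul, natCast_zsmul, nsmul_eq_mul, CharP.cast_eq_zero, zero_mul,
      add_zero] at h2
    rcases Nat.eq_zero_or_pos d with rfl | hd
    · rw [pow_zero] at h2
      exact one_ne_zero h2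
    · exact ht (RingHom.mem_ker.mpr ((pow_eq_zero_iff hd.ne').mp h2))

end Fermat.Agent.DR.Mazur
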