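import Fermat.Agent.DR.Mazur.Defs
import Fermat.Agent.DR.Mazur.Core
import Fermat.Agent.DR.Mazur.NonEis
import Fermat.Agent.DR.Mazur.Descend
import Fermat.Agent.DR.Mazur.Support
import Fermat.Agent.DR.ResidualCompare
import Fermat.Agent.GAL.Final
import Fermat.Agent.CMP.S35Assembly

/-!
# Mazur's principle for elliptic curves over `ℚ`
-/

set_option autoImplicit false
set_option linter.style.haveILetI false

open WeierstrassCurve WeierstrassCurve.Affine WeierstrassCurve.Affine.Point Polynomial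
  IsLocalRing ModularCurve
open scoped WeierstrassCurve.Affine

namespace Fermat.Agent.DR.Mazur

open Fermat.Agent.S30Wiring Fermat.Agent.S30Assembly Fermat.Agent.CMP.Newness
  Fermat.Agent.DR.ResidualCompare Fermat.Agent.CMP.S35Assembly

local notation "Qbar" => AlgebraicClosure ℚ
local notation "Γℚ" => (AlgebraicClosure ℚ ≃ₐ[ℚ] AlgebraicClosure ℚ)

variable {p : ℕ} [hp : Fact p.Prime]

/-- residue fields of `ℤ̄` at maximal ideals above `p` -/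
theorem charP_quotient {𝔪 : Ideal (integralClosure ℤ ℂ)} (h𝔪 : 𝔪.IsMaximal)
    (hpm : (p : integralClosure ℤ ℂ) ∈ 𝔪) : CharP (integralClosure ℤ ℂ ⧸ 𝔪) p := by
  have hp0 : ((p : ℕ) : integralClosure ℤ ℂ ⧸ 𝔪) = 0 := by
    have := (Ideal.Quotient.eq_zero_iff_mem (I := 𝔪)).mpr hpm
    simpa using this
  have h1 : ringChar (integralClosure ℤ ℂ ⧸ 𝔪) ∣ p := ringChar.dvd hp0
  rcases (Nat.dvd_prime hp.out).mp h1 with h2 | h2
  · have : Nontrivial (integralClosure ℤ ℂ ⧸ 𝔪) := Ideal.Quotient.nontrivial_iff.mpr h𝔪.ne_top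
    exact absurd h2 (CharP.ringChar_ne_one)
  · exact ringChar.of_eq h2

/-- The congruence for almost all primes implies the congruence for all good primes. -/
theorem isResiduallyModularOfLevel_of_almost (h29 : S29Prop)
    (W : WeierstrassCurve ℤ) (hΔ : W.Δ ≠ 0)
    (hcard : Nat.card (Submodule.torsionBy ℤ
      ((W.map (Int.castRingHom ℚ))⁄(AlgebraicClosure ℚ)).Point p) = p ^ 2)
    (hker : GaloisFactorsThroughFiniteLevel
      (galoisRepModuleEnd (K := AlgebraicClosure ℚ) ℚ (W.map (Int.castRingHom ℚ)) p))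
    {M : ℕ} (hM : M ≠ 0) (f : CuspForm (CongruenceSubgroup.Gamma0 M) 2)
    (hf : f.IsNormalizedEigenform) (𝔪 : Ideal (integralClosure ℤ ℂ)) (h𝔪 : 𝔪.IsMaximal)
    (hpm : (p : integralClosure ℤ ℂ) ∈ 𝔪) (T : Finset ℕ)
    (hcong : ∀ ℓ : ℕ, ℓ.Prime → W.IsGoodPrimeFor ℓ → ¬ ℓ ∣ M → ℓ ≠ p → ℓ ∉ T →
      ∃ a : integralClosure ℤ ℂ, (a : ℂ) = ModularFormClass.qCoeff f ℓ ∧
        a - ((W.apOfModel ℓ : ℤ) : integralClosure ℤ ℂ) ∈ 𝔪) :
    W.IsResiduallyModularOfLevel p M := by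
  letI : Field (integralClosure ℤ ℂ ⧸ 𝔪) := Ideal.Quotient.field 𝔪
  have hchar : CharP (integralClosure ℤ ℂ ⧸ 𝔪) p := charP_quotient h𝔪 hpm
  let ψ : ZMod p →+* (integralClosure ℤ ℂ ⧸ 𝔪) := ZMod.castHom (dvd_refl p) _
  let φ : integralClosure ℤ ℂ →+* (integralClosure ℤ ℂ ⧸ 𝔪) := Ideal.Quotient.mk 𝔪
  obtain ⟨ρ, hρ, -⟩ := h29 hf hp.out φ
  have hcp : ∀ σ : Γℚ, (LinearMap.charpoly (ρ.ρ σ)).map (RingHom.id _) = (LinearMap.charpoly
      (((W.map (Int.castRingHom ℚ)).residualGaloisRepOf p hcard hker).ρ σ)).map ψ := by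
    refine FrobCompare.residual_charpoly_map_eq EllRed.frobDensity (RingHom.id _) ψ ρ _
      (W.Δ.natAbs.primeFactors ∪ M.primeFactors ∪ {p} ∪ T) ?_
    intro ℓ hℓ hℓS A hA σ hσ
    simp only [Finset.mem_union, Finset.mem_singleton, Nat.mem_primeFactors, not_or, hℓ, true_and,
      not_and, Ne, not_not] at hℓS
    obtain ⟨⟨⟨h1, h2⟩, h3⟩, h4⟩ := hℓS
    have hgood : W.IsGoodPrimeFor ℓ := fun h => hΔ (Int.natAbs_eq_zero.mp (h1 (Int.natCast_dvd.mp h)))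
    have hℓM : ¬ ℓ ∣ M := fun h => hM (h2 h)
    have hℓ0 : (ℓ : integralClosure ℤ ℂ ⧸ 𝔪) ≠ 0 := by
      rw [Ne, CharP.cast_eq_zero_iff _ p ℓ]
      intro h
      exact h3 ((Nat.prime_dvd_prime_iff_eq hp.out hℓ).mp h).symm
    obtain ⟨a, ha, hcpa⟩ := hρ ℓ hℓ hℓM hℓ0 A hA σ hσ
    obtain ⟨a', ha', hφ⟩ := hcong ℓ hℓ hgood hℓM h3 h4
    have haa : a = a' := Subtype.ext (ha.trans ha'.symm)
    have hφ' : φ a' = ((W.apOfModel ℓ : ℤ) : integralClosure ℤ ℂ ⧸ 𝔪) := by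
      have := (Ideal.Quotient.eq_zero_iff_mem (I := 𝔪)).mpr hφ
      rw [map_sub, map_intCast, sub_eq_zero] at this
      exact this
    rw [Polynomial.map_id, hcpa, haa, hφ',
      EllRed.residualGaloisRepOf_charpoly_frobenius EllRed.frobCharpolyInputAll hcard hker hℓ h3
        hgood A hA hσ]
    simp
  refine ⟨f, 𝔪, hf, h𝔪, hpm, fun ℓ hℓ hgood hℓM hℓp => ?_⟩
  have hℓ0 : (ℓ : integralClosure ℤ ℂ ⧸ 𝔪) ≠ 0 := by
    rw [Ne, CharP.cast_eq_zero_iff _ p ℓ]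
    intro h
    exact hℓp ((Nat.prime_dvd_prime_iff_eq hp.out hℓ).mp h).symm
  obtain ⟨A, hA⟩ := FrobExists.exists_liesOverPrime Qbar hℓ
  obtain ⟨σ, hσ⟩ := FrobExists.exists_isFrobeniusAt A hℓ hA
  obtain ⟨a, ha, hcpa⟩ := hρ ℓ hℓ hℓM hℓ0 A hA σ hσ
  refine ⟨a, ha, ?_⟩
  have h1 := hcp σ
  rw [Polynomial.map_id, hcpa,
      EllRed.residualGaloisRepOf_charpoly_frobenius EllRed.frobCharpolyInputAll hcard hker hℓ hℓp
        hgood A hA hσ] at h1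
  have h2 := congrArg (fun P => P.coeff 1) h1
  have h3 : φ a = ((W.apOfModel ℓ : ℤ) : integralClosure ℤ ℂ ⧸ 𝔪) := by
    simpa [coeff_X, coeff_C, Polynomial.coeff_one] using h2
  rw [← Ideal.Quotient.eq_zero_iff_mem, map_sub, map_intCast, sub_eq_zero]
  exact h3

/-- The mod `p` system of Hecke eigenvalues of `W`. -/
noncomputable def ellChar (W : WeierstrassCurve ℤ) (p : ℕ) (S : Finset ℕ) : AnemicAlg S →+* ZMod p :=
  MvPolynomial.eval₂Hom (Int.castRingHom (ZMod p)) fun ℓ => ((W.apOfModel (ℓ.1 : ℕ) : ℤ) : ZMod p)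

theorem ellChar_X (W : WeierstrassCurve ℤ) (S : Finset ℕ) (ℓ : ℕ) (hℓ : ℓ.Prime) (hℓS : ℓ ∉ S) :
    ellChar W p S (MvPolynomial.X ⟨⟨ℓ, hℓ⟩, hℓS⟩) = ((W.apOfModel ℓ : ℤ) : ZMod p) :=
  MvPolynomial.eval₂Hom_X' _ _ _

/-- residual modularity: the eigensystem of `W` factors through the anemic Hecke algebra -/
theorem ellChar_eq_zero (W : WeierstrassCurve ℤ) {N : ℕ} [NeZero N] {S : Finset ℕ}
    (hpS : p ∈ S) (hNS : ∀ q : ℕ, q.Prime → q ∣ N → q ∈ S)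
    (hΔS : ∀ q : ℕ, q.Prime → (q : ℤ) ∣ W.Δ → q ∈ S)
    (hres : W.IsResiduallyModularOfLevel p N) (t : AnemicAlg S)
    (ht : anemicEval hNS t = 0) : ellChar W p S t = 0 := by
  classical
  obtain ⟨f, 𝔪, hf, h𝔪, hpm, hcong⟩ := hres
  have hchar : CharP (integralClosure ℤ ℂ ⧸ 𝔪) p := charP_quotient h𝔪 hpm
  have hnt : Nontrivial (integralClosure ℤ ℂ ⧸ 𝔪) := Ideal.Quotient.nontrivial_iff.mpr h𝔪.ne_top
  let ψ : ZMod p →+* (integralClosure ℤ ℂ ⧸ 𝔪) := ZMod.castHom (dvd_refl p) _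
  have hc : ∀ ℓ : {ℓ : Nat.Primes // (ℓ : ℕ) ∉ S}, ∃ a : integralClosure ℤ ℂ,
      (a : ℂ) = ModularFormClass.qCoeff f (ℓ.1 : ℕ) ∧
        a - ((W.apOfModel (ℓ.1 : ℕ) : ℤ) : integralClosure ℤ ℂ) ∈ 𝔪 := fun ℓ =>
    hcong ℓ.1 ℓ.1.2 (fun h => ℓ.2 (hΔS _ ℓ.1.2 h)) (fun h => ℓ.2 (hNS _ ℓ.1.2 h))
      (fun h => ℓ.2 (h ▸ hpS))
  choose a ha ha' using hc
  let α : AnemicAlg S →+* integralClosure ℤ ℂ :=
    MvPolynomial.eval₂Hom (Int.castRingHom _) a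
  have hα : α t = 0 := by
    apply Subtype.ext
    have h1 : ((integralClosure ℤ ℂ).val.toRingHom.comp α) =
        (CMP.EigenCharOn.eigenCharOn (↑S : Set ℕ) hf).comp (anemicEval hNS).toRingHom := by
      refine MvPolynomial.ringHom_ext (fun r => ?_) fun ℓ => ?_
      · simp
      · have hℓM : ¬ (ℓ.1 : ℕ) ∣ N := fun h => ℓ.2 (hNS _ ℓ.1.2 h)
        have hℓS' : (ℓ.1 : ℕ) ∉ (↑S : Set ℕ) := fun h => ℓ.2 (Finset.mem_coe.mp h)
        change ((α (MvPolynomial.X ℓ) : integralClosure ℤ ℂ) : ℂ) =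
          CMP.EigenCharOn.eigenCharOn (↑S : Set ℕ) hf (anemicEval hNS (MvPolynomial.X ℓ))
        rw [anemicEval_X hNS ℓ hℓM hℓS', CMP.EigenCharOn.eigenCharOn_T]
        have : α (MvPolynomial.X ℓ) = a ℓ := MvPolynomial.eval₂Hom_X' _ _ _
        rw [this]
        exact ha ℓ
    have h2 := RingHom.congr_fun h1 t
    change ((α t : integralClosure ℤ ℂ) : ℂ) =
      CMP.EigenCharOn.eigenCharOn (↑S : Set ℕ) hf (anemicEval hNS t) at h2
    rw [h2, ht, _root_.map_zero]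
    rfl
  have h3 : (Ideal.Quotient.mk 𝔪).comp α = ψ.comp (ellChar W p S) := by
    refine MvPolynomial.ringHom_ext (fun r => by simp) fun ℓ => ?_
    have h4 : α (MvPolynomial.X ℓ) = a ℓ := MvPolynomial.eval₂Hom_X' _ _ _
    have h5 : ellChar W p S (MvPolynomial.X ℓ) = ((W.apOfModel (ℓ.1 : ℕ) : ℤ) : ZMod p) :=
      MvPolynomial.eval₂Hom_X' _ _ _
    change Ideal.Quotient.mk 𝔪 (α (MvPolynomial.X ℓ)) = ψ (ellChar W p S (MvPolynomial.X ℓ))
    rw [h4, h5, map_intCast]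
    have := (Ideal.Quotient.eq_zero_iff_mem (I := 𝔪)).mpr (ha' ℓ)
    rw [map_sub, map_intCast, sub_eq_zero] at this
    exact this
  have h6 := RingHom.congr_fun h3 t
  change Ideal.Quotient.mk 𝔪 (α t) = ψ (ellChar W p S t) at h6
  rw [hα, _root_.map_zero] at h6
  exact ψ.injective (by rw [← h6, _root_.map_zero])

/-- **Mazur's principle** for an elliptic curve (general form). -/
theorem mazurGen (I : GAL.Final.AllInputs) (hp2 : p ≠ 2) (W : WeierstrassCurve ℤ) (hΔ : W.Δ ≠ 0)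
    (hcard : Nat.card (Submodule.torsionBy ℤ
      ((W.map (Int.castRingHom ℚ))⁄(AlgebraicClosure ℚ)).Point p) = p ^ 2)
    (hker : GaloisFactorsThroughFiniteLevel
      (galoisRepModuleEnd (K := AlgebraicClosure ℚ) ℚ (W.map (Int.castRingHom ℚ)) p))
    (hirr : W.ModRepIsIrreducible p) {M q : ℕ} [NeZero M] [NeZero (M * q)] (hq : q.Prime)
    (hqp : q ≠ p)
    (hMI : ∀ S : Finset ℕ, p ∈ S → (∀ r : ℕ, r.Prime → r ∣ M * q → r ∈ S) → MazurInput M q p S)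
    (hunr : ((W.map (Int.castRingHom ℚ)).residualGaloisRepOf p hcard hker).IsUnramifiedAt q)
    (hres : W.IsResiduallyModularOfLevel p (M * q)) :
    W.IsResiduallyModularOfLevel p M ∨ ((q : ZMod p) = 1 ∧
      ∀ B : ValuationSubring Qbar, B.LiesOverPrime q → ∀ φ : Γℚ, B.IsFrobeniusAt φ q →
        ∃ c : ZMod p, ((W.map (Int.castRingHom ℚ)).residualGaloisRepOf p hcard hker).ρ φ =
          c • (1 : Module.End (ZMod p) _)) := by
  classical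
  have h29 : S29Prop := fun hf _ hp' k _ _ φ => GAL.Final.s29 I hf hp' φ
  set ρ := (W.map (Int.castRingHom ℚ)).residualGaloisRepOf p hcard hker with hρdef
  have habs : ρ.IsAbsolutelyIrreducible :=
    isAbsolutelyIrreducible_of_modRepIsIrreducible hp2 W hΔ hcard hker hirr
  set S : Finset ℕ := W.Δ.natAbs.primeFactors ∪ (M * q).primeFactors ∪ {p} with hS
  have hpS : p ∈ S := by simp [hS]
  have hNS : ∀ r : ℕ, r.Prime → r ∣ M * q → r ∈ S := by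
    intro r hr hrN
    simp only [hS, Finset.mem_union, Nat.mem_primeFactors]
    exact Or.inl (Or.inr ⟨hr, hrN, NeZero.ne _⟩)
  have hΔS : ∀ r : ℕ, r.Prime → (r : ℤ) ∣ W.Δ → r ∈ S := by
    intro r hr hrΔ
    simp only [hS, Finset.mem_union, Nat.mem_primeFactors]
    exact Or.inl (Or.inl ⟨hr, Int.natCast_dvd.mp hrΔ, fun h => hΔ (Int.natAbs_eq_zero.mp h)⟩)
  have hMS : ∀ r : ℕ, r.Prime → r ∣ M → r ∈ S := fun r hr h => hNS r hr (h.mul_right q)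
  let χ : AnemicAlg S →+* ZMod p := ellChar W p S
  have hχ : ∀ t : AnemicAlg S, anemicEval hNS t = 0 → χ t = 0 := fun t ht =>
    ellChar_eq_zero W hpS hNS hΔS hres t ht
  by_cases hdesc : ∀ t : AnemicAlg S, anemicEval (N := M) hMS t = 0 → χ t = 0
  · -- level lowering
    left
    obtain ⟨f, 𝔪, hf, h𝔪, hpm, hfa⟩ := exists_eigenform_of_mod hMS χ hdesc
    refine isResiduallyModularOfLevel_of_almost h29 W hΔ hcard hker (NeZero.ne M) f hf 𝔪 h𝔪 hpm S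
      fun ℓ hℓ _ _ _ hℓS => ?_
    exact hfa ℓ hℓ hℓS (W.apOfModel ℓ) (ellChar_X W S ℓ hℓ hℓS)
  right
  push Not at hdesc
  obtain ⟨t, ht, hχt⟩ := hdesc
  -- the Hecke module
  letI := heckeModuleBar (M * q)
  have G := GAL.Final.galInputs I (M * q) p hp.out
  haveI : SMulCommClass Γℚ HeckeAlg (JZero (M * q)) := G.galois_hecke
  letI : Module (AnemicAlg S) (JZero (M * q)) :=
    Module.compHom (JZero (M * q)) (anemicIncl S).toRingHom
  have hsmul : ∀ (a : AnemicAlg S) (x : JZero (M * q)), a • x = anemicIncl S a • x :=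
    fun _ _ => rfl
  haveI : SMulCommClass Γℚ (AnemicAlg S) (JZero (M * q)) :=
    ⟨fun g a x => by rw [hsmul, hsmul, smul_comm]⟩
  have hspec : SpecializationExists (K := ℚ) (L := Qbar) (M * q) p (JZero (M * q)) :=
    G.specialization G.galois_hecke
  have hfrob0 := frobeniusQuadratic_of_specialization hspec
  have hsm : ∀ x : JZero (M * q), ∃ L : IntermediateField ℚ Qbar, FiniteDimensional ℚ L ∧
      ∀ g : Γℚ, (∀ y ∈ L, g y = y) → g • x = x := G.smooth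
  have hlev := fun n : ℕ => finite_level_of_smooth (J := JZero (M * q)) hsm n (G.finite n)
  have hdvd : ∀ ℓ : ℕ, ℓ.Prime → ℓ ∉ S → ¬ ℓ ∣ M * q * p := by
    intro ℓ hℓ hℓS h
    rcases (Nat.Prime.dvd_mul hℓ).mp h with h | h
    · exact hℓS (hNS ℓ hℓ h)
    · rw [(Nat.prime_dvd_prime_iff_eq hℓ Fact.out).mp h] at hℓS
      exact hℓS hpS
  have hfrob : ∀ ℓ : ℕ, ℓ.Prime → ℓ ∉ S → ∀ B : ValuationSubring Qbar, B.LiesOverPrime ℓ →
      ∀ σ : Γℚ, B.IsFrobeniusAt σ ℓ → ∀ m : JZero (M * q), (∃ n : ℕ, p ^ n • m = 0) →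
        σ • σ • m - gens S ℓ • (σ • m) + ℓ • m = 0 := by
    intro ℓ hℓ hℓS B hB σ hσ m hm
    have h := hfrob0 ℓ hℓ (hdvd ℓ hℓ hℓS) B hB σ hσ m hm
    rw [gens_eq ℓ hℓ hℓS, hsmul, anemicIncl, MvPolynomial.rename_X]
    exact h
  have hρ : ∀ ℓ : ℕ, ℓ.Prime → ℓ ∉ S → ∀ B : ValuationSubring Qbar, B.LiesOverPrime ℓ →
      ∀ σ : Γℚ, B.IsFrobeniusAt σ ℓ →
        LinearMap.charpoly (ρ.ρ σ) = X ^ 2 - C (χ (gens S ℓ)) * X + C (ℓ : ZMod p) := by
    intro ℓ hℓ hℓS B hB σ hσ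
    have hgood : W.IsGoodPrimeFor ℓ := fun h => hℓS (hΔS ℓ hℓ h)
    have hℓp : ℓ ≠ p := by rintro rfl; exact hℓS hpS
    rw [gens_eq ℓ hℓ hℓS, ellChar_X, hρdef,
      EllRed.residualGaloisRepOf_charpoly_frobenius EllRed.frobCharpolyInputAll hcard hker hℓ hℓp
        hgood B hB hσ]
  obtain ⟨x₀, hx₀, hpx₀, hx₀χ⟩ := exists_torsion_of_lattice hNS (G.lattice S) G.finite χ hχ
  obtain ⟨ℓ, hℓ, hℓS, hneis⟩ := exists_not_eisenstein ρ habs S (fun ℓ => χ (gens S ℓ)) hρ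
  obtain ⟨w, hww, hwg, hwa, hrel⟩ := hMI S hpS hNS
  refine mazur_core S (gens S) hlev hfrob χ ρ hρ habs hp2 hq hqp hunr (m₀ := x₀)
    ⟨hpx₀, hx₀χ⟩ hx₀ w hww hwg hwa hχt (ℓ := ℓ) (y := gens S ℓ) hneis ?_
  intro B hB φ hφ a ha m hpm hI hTm
  rw [gens_eq ℓ hℓ hℓS] at hTm
  exact hrel hMS t ht B hB φ hφ ℓ hℓ hℓS a ha m hpm hI hTm

end Fermat.Agent.DR.Mazur
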