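import Fermat.Agent.DR.Mazur.Defs
import Fermat.Agent.DR.AtP.AnnP
import Fermat.Agent.DR.ModGal.ALJ
import Fermat.Agent.DR.ModGal.SwapInst

/-!
# `MazurInput` from the specialisation of inertia-fixed eigenclasses
-/

set_option autoImplicit false
set_option linter.unusedSectionVars false
set_option linter.style.haveILetI false

noncomputable section

open AlgebraicCurve ModularCurve IntermediateField
open Fermat.Agent.RR Fermat.Agent.JRED Fermat.Agent.DR Fermat.Agent.DR.Mod Fermat.Agent.DR.ModGal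
open Fermat.Agent.JRED.AL
open Fermat.Agent.S30Wiring (AnemicAlg anemicIncl anemicEval)

namespace Fermat.Agent.DR.Mazur

local notation "Qbar" => AlgebraicClosure ℚ
local notation "Γℚ" => (AlgebraicClosure ℚ ≃ₐ[ℚ] AlgebraicClosure ℚ)

/-- **The geometric input**: an inertia-fixed `m`-torsion eigenclass of `J₀(Mq)` has, up to the
factor `E (a - ℓ - 1)`, a specialisation. -/
def GeoE (E : ℤ) (A : ValuationSubring Qbar) {k : Type} [Field k] {π : A →+* k} {M q : ℕ}
    [NeZero M] [NeZero q] [FunctionField Qbar (modularFunctionFieldBar (M * q))]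
    [FunctionField k (modularFunctionFieldFullC k M)]
    (X : NodalDatum Qbar (modularFunctionFieldBar (M * q)) k
      (modularFunctionFieldFullC k M) (modularFunctionFieldFullC k M) A π) : Prop :=
  ∀ (m : ℕ) (x : JZero (M * q)) (ℓ : Nat.Primes) (a : ℤ), (m : k) ≠ 0 → m • x = 0 →
    (∀ τ ∈ A.inertiaSubgroupIn ℚ, τ • x = x) → ¬ (ℓ : ℕ) ∣ M * q →
    heckeOperatorBar (M * q) ℓ x = a • x →
    ∃ y₁ y₂, Spec X m ((E * (a - ℓ - 1)) • (x : Pic0 Qbar (modularFunctionFieldBar (M * q))))
      y₁ y₂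

/-- The geometric input for all nodal models. -/
def GeoInputE (E : ℤ) (M q : ℕ) [NeZero M] [NeZero q] : Prop :=
  ∀ (_ : q.Prime) (_ : ¬ q ∣ M) (A : ValuationSubring Qbar) (_ : A.LiesOverPrime q)
    (k : Type) [Field k] [IsAlgClosed k] [CharP k q] (π : A →+* k)
    (w : laurentBaseChange Qbar (modularFunctionFieldFull (M * q)) ≃ₐ[Qbar]
      laurentBaseChange Qbar (modularFunctionFieldFull (M * q)))
    [FunctionField Qbar (modularFunctionFieldBar (M * q))]
    [FunctionField Qbar (modularFunctionFieldBar M)]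
    [FunctionField k (modularFunctionFieldFullC k M)]
    (S' : Setup π w) [Fact q.Prime]
    (X : NodalDatum Qbar (modularFunctionFieldBar (M * q)) k
      (modularFunctionFieldFullC k M) (modularFunctionFieldFullC k M) A π),
    IsModularNodal S' X → GeoE E A X

theorem spec_zsmul {M q : ℕ} [NeZero M] [NeZero q]
    {A : ValuationSubring Qbar} {k : Type} [Field k] [IsAlgClosed k] {π : A →+* k}
    [FunctionField Qbar (modularFunctionFieldBar (M * q))]
    [FunctionField k (modularFunctionFieldFullC k M)]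
    {X : NodalDatum Qbar (modularFunctionFieldBar (M * q)) k
      (modularFunctionFieldFullC k M) (modularFunctionFieldFullC k M) A π}
    {m : ℕ} (hπ : Function.Surjective π)
    {x : Pic0 Qbar (modularFunctionFieldBar (M * q))}
    {y₁ y₂ : Pic0 k (modularFunctionFieldFullC k M)} (hm : 0 < m) (h : Spec X m x y₁ y₂) (c : ℤ) :
    Spec X m (c • x) (c • y₁) (c • y₂) := by
  obtain ⟨b, rfl | rfl⟩ := c.eq_nat_or_neg
  · rw [natCast_zsmul, natCast_zsmul, natCast_zsmul]
    exact h.nsmul hm b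
  · rw [neg_zsmul, neg_zsmul, neg_zsmul, natCast_zsmul, natCast_zsmul, natCast_zsmul]
    exact (h.nsmul hm b).neg hπ

/-- Clearing the factor prime to `m`. -/
theorem exists_spec_of_coprime {M q : ℕ} [NeZero M] [NeZero q]
    {A : ValuationSubring Qbar} {k : Type} [Field k] [IsAlgClosed k] {π : A →+* k}
    [FunctionField Qbar (modularFunctionFieldBar (M * q))]
    [FunctionField k (modularFunctionFieldFullC k M)]
    {X : NodalDatum Qbar (modularFunctionFieldBar (M * q)) k
      (modularFunctionFieldFullC k M) (modularFunctionFieldFullC k M) A π}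
    {m : ℕ} (hπ : Function.Surjective π)
    {x : Pic0 Qbar (modularFunctionFieldBar (M * q))} (hm : 0 < m) (hx : m • x = 0) {c : ℤ}
    (hc : IsCoprime c (m : ℤ)) (h : ∃ y₁ y₂, Spec X m (c • x) y₁ y₂) :
    ∃ y₁ y₂, Spec X m x y₁ y₂ := by
  obtain ⟨y₁, y₂, h⟩ := h
  obtain ⟨e, d, hed⟩ := hc
  refine ⟨e • y₁, e • y₂, ?_⟩
  have h4 := spec_zsmul hπ hm h e
  have h5 : e • c • x = x := by
    have h7 : (m : ℤ) • x = 0 := by rw [natCast_zsmul]; exact hx
    have h6 : e * c = 1 - d * m := by linear_combination hed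
    rw [smul_smul, h6, sub_smul, one_smul, mul_smul, h7, smul_zero, sub_zero]
  rwa [h5] at h4

/-- **`MazurInput` from the geometric input.** -/
theorem mazurInput_of_geo {E : ℤ} {M q p : ℕ} [NeZero M] [NeZero q] [NeZero (M * q)]
    (hgeo : GeoInputE E M q) (hq : q.Prime) (hp : p.Prime) (hE : ¬ (p : ℤ) ∣ E) (hqp : q ≠ p)
    (hqM : ¬ q ∣ M) {S : Finset ℕ} (hMS' : ∀ r : ℕ, r.Prime → r ∣ M * q → r ∈ S) :
    MazurInput M q p S := by
  letI := heckeModuleBar (M * q)
  have i0 : Fact q.Prime := ⟨hq⟩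
  have hqS : q ∈ S := hMS' q hq (dvd_mul_left q M)
  obtain ⟨w, hAL, hww, hWW, hWg, hWt, hset⟩ := exists_W M q hq hqM
  refine ⟨wJ w, hWW, hWg, fun t x => hWt _ (S35.anemicIncl_mem_heckeAway hqS t) x, ?_⟩
  intro hMS t ht A hA φ hφ ℓ hℓ hℓS a ha x hpx hfix hT
  have hπ : Function.Surjective (IsLocalRing.residue A) := IsLocalRing.residue_surjective
  have i1 : CharP (IsLocalRing.ResidueField A) q := Mod.charP_of_liesOverPrime hπ hq hA
  have i2 : IsAlgClosed (IsLocalRing.ResidueField A) := isAlgClosed_of_surjective hπ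
  have i3 : ExpChar (IsLocalRing.ResidueField A) q := ExpChar.prime hq
  have hdeg : DegreeInput M (IsLocalRing.ResidueField A) :=
    degreeInput' (NeZero.ne M) hqM
  have hgood : GoodReduction M (IsLocalRing.ResidueField A) :=
    goodReduction hπ hq (NeZero.ne M) hqM
  have i4 := hdeg.functionField
  have i5 := hdeg.functionField'
  have i6 : FunctionField Qbar (modularFunctionFieldBar (M * q)) := functionField_bar (M * q)
  have S' := hset (k := IsLocalRing.ResidueField A) hπ
  obtain ⟨X, hX, -⟩ := exists_modular_nodalDatum hA hqM S' hdeg hgood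
  have hmk : ((p : ℕ) : IsLocalRing.ResidueField A) ≠ 0 := by
    intro h
    rw [CharP.cast_eq_zero_iff _ q] at h
    exact hqp ((Nat.prime_dvd_prime_iff_eq hq hp).mp h)
  have hℓMq : ¬ ℓ ∣ M * q := fun h => hℓS (hMS' ℓ hℓ h)
  have hT' : heckeOperatorBar (M * q) ⟨ℓ, hℓ⟩ x = a • x := by
    rw [← heckeModuleBar_heckeGen_smul
      (Fermat.Agent.JAN.PsiDegree.heckeOperatorsCommuteBar (M * q)) ⟨ℓ, hℓ⟩ x, ← hT]
    rw [anemicIncl, MvPolynomial.rename_X]
    rfl
  have hcop : IsCoprime (E * (a - ℓ - 1)) ((p : ℕ) : ℤ) := by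
    rw [isCoprime_comm, Prime.coprime_iff_not_dvd (Nat.prime_iff_prime_int.mp hp)]
    intro h
    rcases (Nat.prime_iff_prime_int.mp hp).dvd_or_dvd h with h | h
    · exact hE h
    · exact ha (by rwa [sub_sub] at h)
  obtain ⟨y₁, y₂, h⟩ := exists_spec_of_coprime hπ hp.pos hpx hcop
    (hgeo hq hqM A hA _ _ w S' X hX p x ⟨ℓ, hℓ⟩ a hmk hpx hfix hℓMq hT')
  have htor := AtP.inTorus_smul hA hqM S' hX.eq₁ hX.eq₂ hqS hMS ht hp.pos h
  exact frob_w_torus S' hdeg hgood hX.eq₁ hX.eq₂ hX.shift hww hφ hmk htor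

end Fermat.Agent.DR.Mazur
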