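import Mathlib

/-!
# The lemma of Boston–Lenstra–Ribet (2-dimensional case, odd characteristic), elementary proof

`ρ : G → M₂(k)` absolutely irreducible, `θ` a representation of `G` on `V` such that
`θ(g) + det ρ(g) θ(g⁻¹) = tr ρ(g)` for all `g`. Then the kernel of `k[G] → M₂(k)` kills `V`.
-/

set_option autoImplicit false

namespace Fermat.Agent.DR.Mazur

open Matrix

section BLR

variable {k : Type*} [Field k] {G : Type*} [Group G]

theorem d_mul_d_inv (d : G →* k) (g : G) : d g * d g⁻¹ = 1 := by
  rw [← map_mul, mul_inv_cancel, map_one]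

/-- `g ↦ d(g) g⁻¹` into the opposite algebra. -/
noncomputable def starHom (d : G →* k) : G →* (MonoidAlgebra k G)ᵐᵒᵖ where
  toFun g := MulOpposite.op (d g • MonoidAlgebra.of k G g⁻¹)
  map_one' := by rw [inv_one, map_one, map_one, one_smul, MulOpposite.op_one]
  map_mul' g h := by
    rw [← MulOpposite.op_mul, smul_mul_smul_comm, ← map_mul (MonoidAlgebra.of k G),
      ← _root_.mul_inv_rev, map_mul d, mul_comm (d h)]

/-- the anti-involution `g ↦ d(g) g⁻¹` of `k[G]`. -/
noncomputable def star' (d : G →* k) : MonoidAlgebra k G →ₗ[k] MonoidAlgebra k G :=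
  (MulOpposite.opLinearEquiv k).symm.toLinearMap ∘ₗ
    (MonoidAlgebra.lift k (MonoidAlgebra k G)ᵐᵒᵖ G (starHom d)).toLinearMap

theorem star'_of (d : G →* k) (g : G) :
    star' d (MonoidAlgebra.of k G g) = d g • MonoidAlgebra.of k G g⁻¹ := by
  have h := MonoidAlgebra.lift_of (R := k) (starHom d) g
  show MulOpposite.unop (MonoidAlgebra.lift k (MonoidAlgebra k G)ᵐᵒᵖ G (starHom d)
    (MonoidAlgebra.of k G g)) = _
  rw [h]
  rfl

theorem star'_mul (d : G →* k) (x y : MonoidAlgebra k G) :
    star' d (x * y) = star' d y * star' d x := by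
  show MulOpposite.unop (MonoidAlgebra.lift k (MonoidAlgebra k G)ᵐᵒᵖ G (starHom d) (x * y)) = _
  rw [map_mul, MulOpposite.unop_mul]
  rfl

theorem star'_star' (d : G →* k) (x : MonoidAlgebra k G) : star' d (star' d x) = x := by
  induction x using MonoidAlgebra.induction_on with
  | of g => rw [star'_of, map_smul, star'_of, smul_smul, d_mul_d_inv, one_smul, inv_inv]
  | add a b ha hb => rw [map_add, map_add, ha, hb]
  | smul r a ha => rw [map_smul, map_smul, ha]

/-- determinant character -/
def detChar (ρ : G →* Matrix (Fin 2) (Fin 2) k) : G →* k :=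
  (Matrix.detMonoidHom).comp ρ

variable (ρ : G →* Matrix (Fin 2) (Fin 2) k)

theorem add_det_smul (g : G) :
    ρ g + (detChar ρ g) • ρ g⁻¹ = (trace (ρ g)) • (1 : Matrix (Fin 2) (Fin 2) k) := by
  have h1 : ρ g * ρ g⁻¹ = 1 := by rw [← map_mul, mul_inv_cancel, map_one]
  have h2 : (detChar ρ g) • ρ g⁻¹ = adjugate (ρ g) := by
    have h3 : adjugate (ρ g) * (ρ g * ρ g⁻¹) = (det (ρ g)) • ρ g⁻¹ := by
      rw [← mul_assoc, adjugate_mul, smul_mul_assoc, one_mul]
    rw [h1, mul_one] at h3
    exact h3.symm
  rw [h2, adjugate_fin_two]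
  ext i j
  fin_cases i <;> fin_cases j <;> simp [trace_fin_two, add_comm]

variable {V : Type*} [AddCommGroup V] [Module k V] (θ : G →* Module.End k V)

/-- the algebra homomorphism `k[G] → M₂(k)` -/
noncomputable def rho' : MonoidAlgebra k G →ₐ[k] Matrix (Fin 2) (Fin 2) k :=
  MonoidAlgebra.lift k _ G ρ

/-- the algebra homomorphism `k[G] → End V` -/
noncomputable def theta' : MonoidAlgebra k G →ₐ[k] Module.End k V :=
  MonoidAlgebra.lift k _ G θ

theorem rho'_of (g : G) : rho' ρ (MonoidAlgebra.of k G g) = ρ g := MonoidAlgebra.lift_of _ _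

theorem theta'_of (g : G) : theta' θ (MonoidAlgebra.of k G g) = θ g := MonoidAlgebra.lift_of _ _

variable (hθ : ∀ g, θ g + (detChar ρ g) • θ g⁻¹ = (trace (ρ g)) • (1 : Module.End k V))

include hθ in
theorem theta'_add_star (x : MonoidAlgebra k G) :
    theta' θ x + theta' θ (star' (detChar ρ) x) = (trace (rho' ρ x)) • (1 : Module.End k V) := by
  induction x using MonoidAlgebra.induction_on with
  | of g => rw [star'_of, map_smul, theta'_of, theta'_of, rho'_of, hθ]
  | add a b ha hb =>
    rw [map_add, map_add, map_add, map_add, trace_add, add_smul, ← ha, ← hb]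
    abel
  | smul r a ha =>
    rw [map_smul, map_smul, map_smul, map_smul, trace_smul, smul_eq_mul, mul_smul, ← ha, smul_add]

theorem rho'_surjective (hspan : Submodule.span k (Set.range ρ) = ⊤) :
    Function.Surjective (rho' ρ) := by
  rw [← AlgHom.range_eq_top, ← Algebra.toSubmodule_eq_top, eq_top_iff, ← hspan,
    Submodule.span_le]
  rintro _ ⟨g, rfl⟩
  exact ⟨MonoidAlgebra.of k G g, rho'_of ρ g⟩

include hθ in
/-- **Boston–Lenstra–Ribet.** -/
theorem blr (h2 : (2 : k) ≠ 0) (hspan : Submodule.span k (Set.range ρ) = ⊤)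
    {x : MonoidAlgebra k G} (hx : rho' ρ x = 0) : theta' θ x = 0 := by
  set st := star' (detChar ρ) with hst
  set T := theta' θ with hT
  have hneg : ∀ z : MonoidAlgebra k G, rho' ρ z = 0 → T z = - T (st z) := by
    intro z hz
    have := theta'_add_star ρ θ hθ z
    rw [hz, trace_zero, zero_smul] at this
    exact eq_neg_of_add_eq_zero_left this
  have hcomm : ∀ y, T x * T y = T (st y) * T x := by
    intro y
    have h1 : rho' ρ (x * y) = 0 := by rw [map_mul, hx, zero_mul]
    have h3 := hneg _ h1
    rw [hst, star'_mul, ← hst, map_mul, map_mul] at h3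
    rw [h3, hneg x hx, mul_neg]
  have hcomm' : ∀ y, T y * T x = T x * T (st y) := by
    intro y
    rw [hcomm (st y), hst, star'_star']
  have hkill : ∀ y y', (T y * T y' - T y' * T y) * T x = 0 := by
    intro y y'
    have h1 : T x * T (st y' * st y) = T (st (st y' * st y)) * T x := hcomm _
    have h3 : T x * T (st y' * st y) = T y' * T y * T x := by
      rw [map_mul, ← mul_assoc, hcomm (st y'), mul_assoc, hcomm (st y), ← mul_assoc,
        hst, star'_star', star'_star']
    have h4 : T (st (st y' * st y)) = T y * T y' := by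
      rw [hst, star'_mul, star'_star', star'_star', map_mul]
    rw [sub_mul, ← h3, ← h4, ← h1, sub_self]
  have hsurj := rho'_surjective ρ hspan
  obtain ⟨y11, h11⟩ := hsurj !![1, 0; 0, 0]
  obtain ⟨y12, h12⟩ := hsurj !![0, 1; 0, 0]
  obtain ⟨y21, h21⟩ := hsurj !![0, 0; 1, 0]
  obtain ⟨y22, h22⟩ := hsurj !![0, 0; 0, 1]
  set c := (y11 * y12 - y12 * y11) * y21 + (y22 * y21 - y21 * y22) * y12 with hc
  have hc1 : rho' ρ c = 1 := by
    rw [hc]
    simp only [map_add, map_sub, map_mul, h11, h12, h21, h22]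
    ext i j
    fin_cases i <;> fin_cases j <;> simp
  have hTc : T c * T x = 0 := by
    rw [hc]
    simp only [map_add, map_sub, map_mul]
    rw [add_mul, mul_assoc, mul_assoc, hcomm' y21, hcomm' y12, ← mul_assoc, ← mul_assoc,
      hkill, hkill, zero_mul, zero_mul, add_zero]
  have hTc' : T (st c) * T x = 0 := by
    have h1 : st c = st y21 * (st y12 * st y11 - st y11 * st y12) +
        st y12 * (st y21 * st y22 - st y22 * st y21) := by
      rw [hc, map_add, hst, star'_mul, star'_mul, map_sub, map_sub, star'_mul, star'_mul,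
        star'_mul, star'_mul]
    rw [h1]
    simp only [map_add, map_sub, map_mul]
    rw [add_mul, mul_assoc, mul_assoc, hkill, hkill, mul_zero, mul_zero, add_zero]
  have h5 := theta'_add_star ρ θ hθ c
  rw [hc1, trace_one, Fintype.card_fin] at h5
  have h6 : (2 : k) • T x = 0 := by
    have h7 : (T c + T (st c)) * T x = 0 := by rw [add_mul, hTc, hTc', add_zero]
    rw [h5, smul_mul_assoc, one_mul] at h7
    exact_mod_cast h7
  exact (smul_eq_zero.mp h6).resolve_left h2

include hθ in
theorem blr_one (h2 : (2 : k) ≠ 0) (hspan : Submodule.span k (Set.range ρ) = ⊤) {g : G}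
    (hg : ρ g = 1) : θ g = 1 := by
  have h := blr ρ θ hθ h2 hspan (x := MonoidAlgebra.of k G g - 1) (by
    rw [map_sub, map_one, rho'_of, hg, sub_self])
  rw [map_sub, map_one, theta'_of, sub_eq_zero] at h
  exact h

include hθ in
/-- If `g` acts as a scalar on the nonzero `V`, then `ρ g` is the same scalar. -/
theorem scalar_of_scalar [Nontrivial V] (h2 : (2 : k) ≠ 0)
    (hspan : Submodule.span k (Set.range ρ) = ⊤) {g : G} {c : k}
    (hg : θ g = c • (1 : Module.End k V)) : ρ g = c • (1 : Matrix (Fin 2) (Fin 2) k) := by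
  by_contra hne
  set x : MonoidAlgebra k G := MonoidAlgebra.of k G g - c • 1 with hx
  have hTx : theta' θ x = 0 := by
    rw [hx, map_sub, map_smul, map_one, theta'_of, hg, sub_self]
  have hRx : rho' ρ x ≠ 0 := by
    rw [hx, map_sub, map_smul, map_one, rho'_of]
    exact sub_ne_zero.mpr hne
  set m := rho' ρ x with hm
  obtain ⟨i, j, hij⟩ : ∃ i j, m i j ≠ 0 := by
    by_contra hcon
    push Not at hcon
    exact hRx (Matrix.ext hcon)
  have hsurj := rho'_surjective ρ hspan
  choose L hL using fun l : Fin 2 => hsurj (Matrix.single l i (m i j)⁻¹)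
  choose R hR using fun l : Fin 2 => hsurj (Matrix.single j l (1 : k))
  have h1 : rho' ρ (∑ l, L l * x * R l - 1) = 0 := by
    rw [map_sub, map_sum, map_one]
    simp only [map_mul, hL, hR, ← hm]
    rw [sub_eq_zero, Finset.sum_congr rfl fun l _ => by
      rw [Matrix.single_mul_mul_single, inv_mul_cancel₀ hij, mul_one]]
    ext a b
    rw [Matrix.sum_apply, Fin.sum_univ_two]
    fin_cases a <;> fin_cases b <;> simp [Matrix.single]
  have h3 := blr ρ θ hθ h2 hspan h1
  rw [map_sub, map_one, map_sum, sub_eq_zero] at h3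
  simp only [map_mul, hTx, mul_zero, zero_mul, Finset.sum_const_zero] at h3
  obtain ⟨v, hv⟩ := exists_ne (0 : V)
  exact hv (by simpa using (LinearMap.congr_fun h3 v).symm)

end BLR

end Fermat.Agent.DR.Mazur
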