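import Fermat.Agent.S30Wiring

/-!
# The geometric input of Mazur's principle
-/

set_option autoImplicit false

namespace Fermat.Agent.DR.Mazur

open Fermat.Agent.S30Wiring ModularCurve

local notation "Qbar" => AlgebraicClosure ℚ
local notation "Γℚ" => (AlgebraicClosure ℚ ≃ₐ[ℚ] AlgebraicClosure ℚ)

/-- **Geometric input of Mazur's principle** (`q ∤ M`, `q ≠ p`): there is an involution `W` of
`J₀(Mq)` commuting with Galois and the `T_ℓ`, `ℓ ∉ S`, such that for every Hecke polynomial `t` in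
the `T_ℓ`, `ℓ ∉ S`, killing `S₂(Γ₀(M))`, every `x ∈ J₀(Mq)[p]` fixed by inertia at `q` and
`T_ℓ`-eigenvector for some `ℓ ∉ S` with eigenvalue `a ≢ ℓ + 1 mod p`: `φ W (t x) = - q t x`. -/
def MazurInput (M q p : ℕ) [NeZero M] [NeZero (M * q)] (S : Finset ℕ) : Prop :=
  letI := heckeModuleBar (M * q)
  ∃ W : JZero (M * q) →+ JZero (M * q), (∀ x, W (W x) = x) ∧
    (∀ (g : Γℚ) (x : JZero (M * q)), W (g • x) = g • W x) ∧
    (∀ (t : AnemicAlg S) (x : JZero (M * q)), W (anemicIncl S t • x) = anemicIncl S t • W x) ∧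
    ∀ (hMS : ∀ r : ℕ, r.Prime → r ∣ M → r ∈ S) (t : AnemicAlg S),
      anemicEval (N := M) hMS t = 0 →
      ∀ B : ValuationSubring Qbar, B.LiesOverPrime q → ∀ φ : Γℚ, B.IsFrobeniusAt φ q →
        ∀ (ℓ : ℕ) (hℓ : ℓ.Prime) (hℓS : ℓ ∉ S) (a : ℤ), ¬ (p : ℤ) ∣ a - (ℓ + 1) →
          ∀ x : JZero (M * q), p • x = 0 → (∀ τ ∈ B.inertiaSubgroupIn ℚ, τ • x = x) →
            anemicIncl S (MvPolynomial.X ⟨⟨ℓ, hℓ⟩, hℓS⟩) • x = a • x →
              φ • W (anemicIncl S t • x) = -(q • (anemicIncl S t • x))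

end Fermat.Agent.DR.Mazur
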