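import Fermat.Agent.DR.Mazur.Assembly
import Fermat.Agent.DR.S43Glue

/-!
# Mazur's principle for the Frey curve
-/

set_option autoImplicit false

open WeierstrassCurve WeierstrassCurve.Affine WeierstrassCurve.Affine.Point
open scoped WeierstrassCurve.Affine

namespace Fermat.Agent.DR.Mazur

open Fermat.Agent.DR.ResidualCompare

/-- **Mazur's principle for the Frey curve** from the geometric input. -/
theorem mazurFrey_of (I : GAL.Final.AllInputs)
    (hMI : ∀ (M q p : ℕ) [NeZero M] [NeZero (M * q)] (S : Finset ℕ), q.Prime → p.Prime → 5 ≤ p →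
      q ≠ p → ¬ q ∣ M → p ∈ S → (∀ r : ℕ, r.Prime → r ∣ M * q → r ∈ S) → MazurInput M q p S) :
    S43Glue.MazurFrey := by
  intro P N q hcond hpN h2N hq hq2 hqp hqN hirr hmod hunr hns
  have : Fact P.p.Prime := ⟨P.pp⟩
  have hp5 := P.hp5
  obtain ⟨M, rfl⟩ := hqN
  rw [mul_comm q M] at *
  have hMq0 : M * q ≠ 0 := hcond.pos.ne'
  have : NeZero (M * q) := ⟨hMq0⟩
  have : NeZero M := ⟨fun h => hMq0 (by rw [h, zero_mul])⟩
  have hqM : ¬ q ∣ M := by
    rintro ⟨c, rfl⟩
    exact hcond.sq_not_dvd hq ⟨c, by ring⟩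
  refine ⟨M, Dvd.intro _ rfl, hqM, ?_⟩
  obtain ⟨f, W, 𝔪, hf, hW, h𝔪, hpm, hcong⟩ := hmod
  have hΔ := FreyPackage.AgentFrey.integralModel_Δ_ne_zero P hW
  have hell := EllTorsion.isElliptic_map_of_Δ_ne_zero hΔ
  have hcard := EllTorsion.card_torsionBy_rat (W.map (Int.castRingHom ℚ)) P.pp.ne_zero
  have hker := EllTorsion.galoisRepModuleEnd_factorsThroughFiniteLevel
    (W.map (Int.castRingHom ℚ)) P.pp.ne_zero
  have hirrW : W.ModRepIsIrreducible P.p :=
    (VarChange.modRepIsIrreducible_iff_of_isIntegralModelOf hW _).mpr hirr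
  have hunrW : ((W.map (Int.castRingHom ℚ)).residualGaloisRepOf P.p hcard hker).IsUnramifiedAt
      q := by
    have h := (VarChange.galoisRepUnramifiedAt_iff_of_isIntegralModelOf hW P.p q).mpr hunr
    intro A hA σ hσ
    exact LinearMap.ext fun x => h A hA σ hσ x
  rcases mazurGen I (by omega) W hΔ hcard hker hirrW hq hqp
    (fun S hpS hNS => hMI M q P.p S hq P.pp hp5 hqp hqM hpS hNS) hunrW
    ⟨f, 𝔪, hf, h𝔪, hpm, hcong⟩ with h | ⟨h1, h2⟩
  · exact FreyPackage.AgentFrey.modularRepOfLevel_of_isResiduallyModularOfLevel P hW h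
  exfalso
  apply hns
  constructor
  · have h3 : (q : ZMod P.p) = (1 : ℕ) := by rw [h1]; simp
    rw [ZMod.natCast_eq_natCast_iff] at h3
    have h4 : q % P.p = 1 % P.p := h3
    rw [h4, Nat.mod_eq_of_lt (by omega)]
  · intro A hA σ hσ
    obtain ⟨c, hc⟩ := h2 A hA σ hσ
    refine ⟨c, fun x => ?_⟩
    obtain ⟨C, hC⟩ := hW
    have hC' : C⁻¹ • W.map (Int.castRingHom ℚ) = P.freyCurve := by
      rw [← hC, inv_smul_smul]
    apply (VarChange.torsionLinearEquiv (K := AlgebraicClosure ℚ) C⁻¹ hC' P.p).injective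
    rw [VarChange.torsionLinearEquiv_smul, map_smul]
    exact LinearMap.congr_fun hc _

end Fermat.Agent.DR.Mazur
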