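import Fermat.Agent.DR.Mazur.Frey
import Fermat.Agent.DR.Mazur.OfGeo
import Fermat.Agent.DR.AllInputs
import Fermat.Agent.DR.Mod.SpecGeo

/-!
# `MazurFrey`
-/

set_option autoImplicit false

namespace Fermat.Agent.DR.Mazur

theorem mazurFrey_of_geo (hgeo : ∀ (M q : ℕ) [NeZero M] [NeZero q], GeoInputE 12 M q) :
    S43Glue.MazurFrey := by
  refine mazurFrey_of allInputs ?_
  intro M q p _ _ S hq hp hp5 hqp hqM _ hMS
  have : NeZero q := ⟨hq.ne_zero⟩
  refine mazurInput_of_geo (hgeo M q) hq hp ?_ hqp hqM hMS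
  intro h
  have h1 : p ∣ 12 := by exact_mod_cast h
  have h2 : p ∣ 2 ^ 2 * 3 := by simpa using h1
  rcases hp.dvd_mul.mp h2 with h | h
  · have := Nat.le_of_dvd (by norm_num) (hp.dvd_of_dvd_pow h)
    omega
  · have := Nat.le_of_dvd (by norm_num) h
    omega

/-- **Mazur's principle for the Frey curve.** -/
theorem mazurFrey : S43Glue.MazurFrey :=
  mazurFrey_of_geo fun M q _ _ => Mod.geoInput M q

end Fermat.Agent.DR.Mazur
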