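import Fermat.Agent.CMP.Transfer
import Fermat.Agent.DR.Mazur.BLR
import Fermat.Agent.BrauerNesbitt2

/-!
# Mazur's principle: the Galois side

`J` a Hecke–Galois module with the Eichler–Shimura relation, `χ` a mod `p` system of Hecke
eigenvalues, `ρ` the corresponding (absolutely irreducible) residual representation over `𝔽_p`.
On `J[p][χ]` the group ring `𝔽_p[G_ℚ]` acts through `ρ` (Boston–Lenstra–Ribet).
-/

set_option autoImplicit false
set_option linter.style.haveILetI false

open Polynomial IsLocalRing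

namespace Fermat.Agent.DR.Mazur

open Fermat.Agent.S30Assembly Fermat.Agent.CMP.Transfer

local notation "Qbar" => AlgebraicClosure ℚ
local notation "Γℚ" => (AlgebraicClosure ℚ ≃ₐ[ℚ] AlgebraicClosure ℚ)

section Adic

variable {p : ℕ} [Fact p.Prime]

/-- A residual representation over `𝔽_p` as an adic representation. -/
def toAdic (ρ : ResidualGaloisRep (ZMod p)) : GaloisRepAdic (ZMod p) where
  V := ρ.V
  instFree := inferInstance
  instFinite := inferInstance
  finrank_eq := ρ.finrank_eq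
  ρ := ρ.ρ
  isAdicContinuous := by
    obtain ⟨L, hL, h⟩ := ρ.factorsThroughFiniteLevel
    intro n
    refine ⟨L, hL, fun σ hσ v => ?_⟩
    rw [h σ hσ, Module.End.one_apply, sub_self]
    exact zero_mem _

end Adic

section Matrix

variable {k V : Type*} [Field k] [AddCommGroup V] [Module k V] [FiniteDimensional k V]
  {G : Type*} [Group G]

/-- matrices of a 2-dimensional representation -/
noncomputable def matRep (hV : Module.finrank k V = 2) (ρ : G →* Module.End k V) :
    G →* Matrix (Fin 2) (Fin 2) k :=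
  ((LinearMap.toMatrixAlgEquiv (Module.finBasisOfFinrankEq k V hV)).toMonoidHom).comp ρ

theorem matRep_apply (hV : Module.finrank k V = 2) (ρ : G →* Module.End k V) (g : G) :
    matRep hV ρ g = LinearMap.toMatrixAlgEquiv (Module.finBasisOfFinrankEq k V hV) (ρ g) := rfl

theorem trace_matRep (hV : Module.finrank k V = 2) (ρ : G →* Module.End k V) (g : G) :
    Matrix.trace (matRep hV ρ g) = LinearMap.trace k V (ρ g) := by
  rw [matRep_apply, LinearMap.trace_eq_matrix_trace k (Module.finBasisOfFinrankEq k V hV)]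
  rfl

theorem det_matRep (hV : Module.finrank k V = 2) (ρ : G →* Module.End k V) (g : G) :
    Matrix.det (matRep hV ρ g) = LinearMap.det (ρ g) := by
  rw [matRep_apply, ← LinearMap.det_toMatrix (Module.finBasisOfFinrankEq k V hV)]
  rfl

theorem span_matRep (hV : Module.finrank k V = 2) (ρ : G →* Module.End k V)
    (h : Submodule.span k (Set.range ρ) = ⊤) :
    Submodule.span k (Set.range (matRep hV ρ)) = ⊤ := by
  let e := (LinearMap.toMatrixAlgEquiv (Module.finBasisOfFinrankEq k V hV)).toLinearEquiv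
  have h1 : Set.range (matRep hV ρ) = e '' Set.range ρ := by
    rw [← Set.range_comp]; rfl
  rw [h1]
  have h2 := Submodule.map_span e.toLinearMap (Set.range ρ)
  rw [h, Submodule.map_top, LinearEquiv.range] at h2
  exact h2.symm

end Matrix

section Rep

variable {p : ℕ} [hp : Fact p.Prime] (ρ : ResidualGaloisRep (ZMod p))
  (habs : ρ.IsAbsolutelyIrreducible)

include habs in
theorem span_eq_top : Submodule.span (ZMod p) (Set.range ρ.ρ) = ⊤ := by
  have hnt : Nontrivial ρ.V := Module.nontrivial_of_finrank_pos (R := ZMod p)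
    (by rw [ρ.finrank_eq]; norm_num)
  exact BN2.span_eq_top_of_baseChange_irreducible (K := AlgebraicClosure (ZMod p)) ρ.ρ habs

variable {V : Type*} [AddCommGroup V] [Module (ZMod p) V] (θ : Γℚ →* Module.End (ZMod p) V)
  (hθ : ∀ (g : Γℚ) (v : V), θ g v + LinearMap.det (ρ.ρ g) • θ g⁻¹ v =
    LinearMap.trace (ZMod p) ρ.V (ρ.ρ g) • v)

include hθ in
theorem quad (g : Γℚ) : θ g + (detChar (matRep ρ.finrank_eq ρ.ρ) g) • θ g⁻¹ =
    (Matrix.trace (matRep ρ.finrank_eq ρ.ρ g)) • (1 : Module.End (ZMod p) V) := by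
  ext v
  rw [trace_matRep]
  have : detChar (matRep ρ.finrank_eq ρ.ρ) g = LinearMap.det (ρ.ρ g) := det_matRep _ _ _
  rw [this]
  exact hθ g v

include hθ habs in
/-- the kernel of `ρ` acts trivially on `V` -/
theorem eq_one_of_eq_one (hp2 : p ≠ 2) {g : Γℚ} (hg : ρ.ρ g = 1) (v : V) : θ g v = v := by
  have h2 : (2 : ZMod p) ≠ 0 := by
    intro h
    have : ((2 : ℕ) : ZMod p) = 0 := by exact_mod_cast h
    rw [ZMod.natCast_eq_zero_iff] at this
    exact hp2 ((Nat.prime_dvd_prime_iff_eq hp.out Nat.prime_two).mp this)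
  have h1 := blr_one (matRep ρ.finrank_eq ρ.ρ) θ (quad ρ θ hθ) h2
    (span_matRep _ _ (span_eq_top ρ habs)) (g := g) (by rw [matRep_apply, hg, map_one])
  rw [h1, Module.End.one_apply]

include hθ habs in
/-- scalars on `V ≠ 0` are scalars on `ρ` -/
theorem scalar_of_scalar' [Nontrivial V] (hp2 : p ≠ 2) {g : Γℚ} {c : ZMod p}
    (hg : ∀ v : V, θ g v = c • v) : ρ.ρ g = c • (1 : Module.End (ZMod p) ρ.V) := by
  have h2 : (2 : ZMod p) ≠ 0 := by
    intro h
    have : ((2 : ℕ) : ZMod p) = 0 := by exact_mod_cast h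
    rw [ZMod.natCast_eq_zero_iff] at this
    exact hp2 ((Nat.prime_dvd_prime_iff_eq hp.out Nat.prime_two).mp this)
  have h1 := scalar_of_scalar (matRep ρ.finrank_eq ρ.ρ) θ (quad ρ θ hθ) h2
    (span_matRep _ _ (span_eq_top ρ habs)) (g := g) (c := c) (LinearMap.ext hg)
  rw [matRep_apply] at h1
  apply (LinearMap.toMatrixAlgEquiv (Module.finBasisOfFinrankEq (ZMod p) ρ.V
    ρ.finrank_eq)).injective
  rw [h1, map_smul, map_one]

end Rep

section Relation

variable {p : ℕ} [hp : Fact p.Prime] {A J : Type*} [CommRing A] [AddCommGroup J] [Module A J]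
  [DistribMulAction Γℚ J]

/-- **The trace relation on `J[p][χ]`.** -/
theorem trace_relation (S : Finset ℕ) (x : ℕ → A)
    (hlev : ∀ n : ℕ, ∃ L : IntermediateField ℚ Qbar, FiniteDimensional ℚ L ∧
      ∀ σ : Γℚ, (∀ y ∈ L, σ y = y) → ∀ m : J, p ^ n • m = 0 → σ • m = m)
    (hfrob : ∀ ℓ : ℕ, ℓ.Prime → ℓ ∉ S → ∀ B : ValuationSubring Qbar, B.LiesOverPrime ℓ →
      ∀ σ : Γℚ, B.IsFrobeniusAt σ ℓ → ∀ m : J, (∃ n : ℕ, p ^ n • m = 0) →
        σ • σ • m - x ℓ • (σ • m) + ℓ • m = 0)
    (χ : A →+* ZMod p) (ρ : ResidualGaloisRep (ZMod p))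
    (hρ : ∀ ℓ : ℕ, ℓ.Prime → ℓ ∉ S → ∀ B : ValuationSubring Qbar, B.LiesOverPrime ℓ →
      ∀ σ : Γℚ, B.IsFrobeniusAt σ ℓ →
        LinearMap.charpoly (ρ.ρ σ) = X ^ 2 - C (χ (x ℓ)) * X + C (ℓ : ZMod p))
    (g : Γℚ) {m : J} (hpm : p • m = 0) (hm : ∀ a : A, χ a = 0 → a • m = 0) :
    g • m + (LinearMap.det (ρ.ρ g)).val • (g⁻¹ • m) =
      (LinearMap.trace (ZMod p) ρ.V (ρ.ρ g)).val • m := by
  obtain ⟨a, ha, htr, hdet⟩ := exists_represents_trace (A := A) (M := J) (p := p) S x hlev hfrob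
    (R := ZMod p) (by rw [CharP.cast_eq_zero]; exact zero_mem _) χ (toAdic ρ) hρ 1 g
  have hbot : maximalIdeal (ZMod p) = ⊥ := IsLocalRing.maximalIdeal_eq_bot
  rw [pow_one, hbot, Ideal.mem_bot, sub_eq_zero] at htr hdet
  have h1 := ha m (by rw [pow_one]; exact hpm)
  have hav : a • m = (χ a).val • m := by
    have h2 := hm (a - ((χ a).val : A)) (by
      rw [map_sub, map_natCast, ZMod.natCast_zmod_val, sub_self])
    rw [sub_smul, sub_eq_zero, Nat.cast_smul_eq_nsmul] at h2
    exact h2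
  have hcongr : ∀ (c d : ℕ) (z : J), p • z = 0 → (c : ZMod p) = d → c • z = d • z := by
    intro c d z hz hcd
    rw [ZMod.natCast_eq_natCast_iff] at hcd
    have h3 : ∀ n : ℕ, n • z = (n % p) • z := by
      intro n
      conv_lhs => rw [← Nat.div_add_mod n p, add_smul, mul_comm, mul_smul, hz, smul_zero, zero_add]
    rw [h3 c, h3 d]
    exact congrArg (· • z) hcd
  have hpg : p • (g⁻¹ • m) = 0 := by rw [← gal_nsmul, hpm, smul_zero]
  change LinearMap.det (ρ.ρ g) = _ at hdet
  change LinearMap.trace (ZMod p) ρ.V (ρ.ρ g) = _ at htr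
  rw [htr, ← hav, h1]
  congr 1
  apply hcongr _ _ _ hpg
  rw [ZMod.natCast_zmod_val, hdet]

end Relation

end Fermat.Agent.DR.Mazur
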